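/-
S13, work package WP3 (coordinator helper14): local analysis of the Frey model at the prime `2`.

Model: `W : Affine L` with `a₁ = 1`, `a₃ = a₆ = 0`, i.e. `y² + x y = x³ + a x² + b x`,
`a := W.a₂`, `b := W.a₄`; `A` a valuation subring of `L` with `|2| < 1`, `|a| ≤ 1`, `0 < |b| < 1`.
Convention `|x| := A.valuation x` (so `|x| ≤ 1 ↔ x ∈ A`).  With `t = y / x`:  `t² + t = x + a + b / x`.
The reduced curve has a node at `(0,0)` with tangent slopes `λ, -1 - λ`, `λ² + λ = a`.
`T = (0,0)` is a point of order 2 and `P + T = (b / x, ·)`.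

Regions of an affine point `(x, y)`:
  `E₁` : `|x| > 1`,  `E₀` : `|x| ≥ 1`,  `C(λ)` : `|b| < |x| < 1`, `|y - λ x| < |x|`,  `T + E₀` : `|x| ≤ |b|`.

This file contains only definitions and the EXACT statements (`Stmt2_*`) of the pieces.
-/
import Mathlib
import Fermat.Agent.S13.Defs

set_option autoImplicit false

namespace Fermat.Agent.S13.WP3

open WeierstrassCurve WeierstrassCurve.Affine

section model

variable {L : Type*} [Field L]

/-- Hypotheses on the model `y² + x y = x³ + a x² + b x` relative to a valuation subring `A`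
of residue characteristic `2`. -/
structure ModelHyp2 (A : ValuationSubring L) (W : Affine L) : Prop where
  a₁ : W.a₁ = 1
  a₃ : W.a₃ = 0
  a₆ : W.a₆ = 0
  a_le : A.valuation W.a₂ ≤ 1
  b_lt : A.valuation W.a₄ < 1
  b_ne : W.a₄ ≠ 0
  two : A.valuation (2 : L) < 1

/-- Kernel of reduction: `P = 0` or `|x(P)| > 1`. -/
def InE1 (A : ValuationSubring L) {W : Affine L} : W.Point → Prop
  | .zero => True
  | .some x _ _ => 1 < A.valuation x

/-- Points with nonsingular reduction: `P = 0` or `|x(P)| ≥ 1`. -/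
def InE0 (A : ValuationSubring L) {W : Affine L} : W.Point → Prop
  | .zero => True
  | .some x _ _ => 1 ≤ A.valuation x

/-- `T + E₀`: affine point with `|x| ≤ |b|` (this includes `T = (0,0)`). -/
def InET (A : ValuationSubring L) {W : Affine L} : W.Point → Prop
  | .zero => False
  | .some x _ _ => A.valuation x ≤ A.valuation W.a₄

/-- The region `C(λ)`: `|b| < |x| < 1` and `|y - λ x| < |x|`. -/
def InC (A : ValuationSubring L) {W : Affine L} (lam : L) : W.Point → Prop
  | .zero => False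
  | .some x y _ => A.valuation W.a₄ < A.valuation x ∧ A.valuation x < 1 ∧
      A.valuation (y - lam * x) < A.valuation x

/-- `|x(P)|`, with junk value `0` at the origin. -/
noncomputable def xVal (A : ValuationSubring L) {W : Affine L} : W.Point → A.ValueGroup
  | .zero => 0
  | .some x _ _ => A.valuation x

/-- `|b|` as a unit of the value group. -/
noncomputable def bUnit {A : ValuationSubring L} {W : Affine L} (hyp : ModelHyp2 A W) :
    (A.ValueGroup)ˣ :=
  Units.mk0 (A.valuation W.a₄) (by simpa using hyp.b_ne)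

/-- `|x|` as a unit of the value group, for `x ≠ 0`. -/
noncomputable def valUnit (A : ValuationSubring L) (x : L) (hx : x ≠ 0) : (A.ValueGroup)ˣ :=
  Units.mk0 (A.valuation x) (by simpa using hx)

/-- The component group `Γˣ / ⟨|b|²⟩`. -/
abbrev CompGroup {A : ValuationSubring L} {W : Affine L} (hyp : ModelHyp2 A W) : Type _ :=
  (A.ValueGroup)ˣ ⧸ Subgroup.zpowers (bUnit hyp ^ 2)

variable [DecidableEq L]

/-- (2A) Line data (Vieta) for `P₁ + P₂ = P₃` on `y² + x y = x³ + a x² + b x`: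
`P₁, P₂, -P₃ = (x₃, -y₃ - x₃)` lie on `y = ℓ x + μ`. -/
def Stmt2_line : Prop :=
  ∀ (W : Affine L), W.a₁ = 1 → W.a₃ = 0 → W.a₆ = 0 →
  ∀ (x₁ y₁ x₂ y₂ x₃ y₃ : L) (h₁ : W.Nonsingular x₁ y₁) (h₂ : W.Nonsingular x₂ y₂)
    (h₃ : W.Nonsingular x₃ y₃),
    Point.some x₁ y₁ h₁ + Point.some x₂ y₂ h₂ = Point.some x₃ y₃ h₃ →
    ∃ ℓ μ : L, y₁ = ℓ * x₁ + μ ∧ y₂ = ℓ * x₂ + μ ∧ -y₃ - x₃ = ℓ * x₃ + μ ∧
      x₁ + x₂ + x₃ = ℓ ^ 2 + ℓ - W.a₂ ∧
      x₁ * x₂ + x₁ * x₃ + x₂ * x₃ = W.a₄ - (2 * ℓ + 1) * μ ∧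
      x₁ * x₂ * x₃ = μ ^ 2

/-- (2B1) `E₁` is closed under addition. -/
def Stmt2_E1_add : Prop :=
  ∀ (A : ValuationSubring L) (W : Affine L), ModelHyp2 A W →
  ∀ P Q : W.Point, InE1 A P → InE1 A Q → InE1 A (P + Q)

/-- (2B2) `E₁` is closed under negation. -/
def Stmt2_E1_neg : Prop :=
  ∀ (A : ValuationSubring L) (W : Affine L), ModelHyp2 A W →
  ∀ P : W.Point, InE1 A P → InE1 A (-P)

/-- (2B3) (F1) `E₁` has no `n`-torsion for `n` a unit of `A` (e.g. `n` odd). -/
def Stmt2_F1 : Prop :=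
  ∀ (A : ValuationSubring L) (W : Affine L), ModelHyp2 A W →
  ∀ (P : W.Point), InE1 A P → P ≠ 0 → ∀ n : ℕ, A.valuation (n : L) = 1 → n • P ≠ 0

/-- (2C) Two affine points with unit `x`-coordinate and the same reduction differ by an element
of `E₁`.  (In residue characteristic 2 the reduction of such a point is never a 2-torsion point:
`2y + x ≡ x` is a unit.) -/
def Stmt2_sameRed : Prop :=
  ∀ (A : ValuationSubring L) (W : Affine L), ModelHyp2 A W →
  ∀ (x y x' y' : L) (h : W.Nonsingular x y) (h' : W.Nonsingular x' y'),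
    A.valuation x = 1 → A.valuation (x - x') < 1 → A.valuation (y - y') < 1 →
    InE1 A (Point.some x y h - Point.some x' y' h')

/-- (2D0) `E₀` is closed under addition. -/
def Stmt2_E0_add : Prop :=
  ∀ (A : ValuationSubring L) (W : Affine L), ModelHyp2 A W →
  ∀ P Q : W.Point, InE0 A P → InE0 A Q → InE0 A (P + Q)

/-- (2D) (M1) the component homomorphism `φ : E(L) → Γˣ/⟨|b|²⟩`, `λ² + λ = a`:
kernel `E₀`, value `[|x|]` on `C(λ)`, value `[|b|]` on `T + E₀`.
(On `C(-1-λ) = -C(λ)` the value is then `[|x|]⁻¹`.) -/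
def Stmt2_M1 : Prop :=
  ∀ (A : ValuationSubring L) (W : Affine L) (hyp : ModelHyp2 A W),
  ∀ lam : L, lam ^ 2 + lam = W.a₂ →
  ∃ φ : W.Point →+ Additive (CompGroup hyp),
    (∀ P, φ P = 0 ↔ InE0 A P) ∧
    (∀ (x y : L) (h : W.Nonsingular x y) (hx0 : x ≠ 0),
      A.valuation W.a₄ < A.valuation x → A.valuation x < 1 →
      A.valuation (y - lam * x) < A.valuation x →
      φ (.some x y h) = Additive.ofMul (QuotientGroup.mk (valUnit A x hx0))) ∧
    (∀ (x y : L) (h : W.Nonsingular x y), A.valuation x ≤ A.valuation W.a₄ →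
      φ (.some x y h) = Additive.ofMul (QuotientGroup.mk (bUnit hyp)))

/-- (2D') every affine point with `|b| < |x| < 1` lies in `C(λ)` or in `C(-1-λ)`. -/
def Stmt2_annulus : Prop :=
  ∀ (A : ValuationSubring L) (W : Affine L), ModelHyp2 A W →
  ∀ lam : L, lam ^ 2 + lam = W.a₂ →
  ∀ (x y : L), W.Nonsingular x y → A.valuation W.a₄ < A.valuation x → A.valuation x < 1 →
    A.valuation (y - lam * x) < A.valuation x ∨ A.valuation (y - (-1 - lam) * x) < A.valuation x

end model

section core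

/-- (2F) core of (I4): on the model over an algebraically closed field, an automorphism `σ`
preserving the valuation and acting trivially on the residue field fixes `E[n] ∩ E₀` pointwise
(`n` a unit of `A`) and moves every point of `E[n]` inside its `E₀`-coset. -/
def Stmt2_coreI4 : Prop :=
  ∀ (K₀ L : Type) [Field K₀] [Field L] [DecidableEq L] [Algebra K₀ L] [IsAlgClosed L]
    (A : ValuationSubring L) (W' : Affine K₀), ModelHyp2 A (W'⁄L) →
  ∀ (n : ℕ), A.valuation (n : L) = 1 →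
  ∀ (σ : L ≃ₐ[K₀] L), (∀ x, A.valuation (σ x) = A.valuation x) →
    (∀ x, A.valuation x ≤ 1 → A.valuation (σ x - x) < 1) →
  ∀ P : (W'⁄L).Point, (n : ℤ) • P = 0 →
    InE0 A (σ • P - P) ∧ (InE0 A P → σ • P = P)

end core

section frey

/-- (2E) arithmetic of the Frey model at `2`: `ModelHyp2`, and `|a₄| = |2|^m` with
`m = p·v₂(b) - 4 > 0`, so that `2m` is prime to `p`. -/
def Stmt2_arith : Prop :=
  ∀ (P : FreyPackage) (A : ValuationSubring Qbar), A.LiesOverPrime 2 →
    ModelHyp2 A (P.freyCurve⁄Qbar) ∧ A.valuation ((P.p : ℕ) : Qbar) = 1 ∧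
    ∃ m : ℕ, 0 < m ∧ Nat.Coprime (2 * m) P.p ∧
      A.valuation (algebraMap ℚ Qbar P.freyCurve.a₄) = A.valuation (2 : Qbar) ^ m

/-- (2G0) valuations of rational numbers at a place over `2` are integral powers of `|2|`. -/
def Stmt2_ratVal : Prop :=
  ∀ (A : ValuationSubring Qbar), A.LiesOverPrime 2 → ∀ r : ℚ, r ≠ 0 →
    ∃ k : ℤ, A.valuation (algebraMap ℚ Qbar r) = A.valuation (2 : Qbar) ^ k

/-- (2G1) a rational number which is integral at a place over `2` is `≡ 0` or `≡ 1`. -/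
def Stmt2_ratRes : Prop :=
  ∀ (A : ValuationSubring Qbar), A.LiesOverPrime 2 → ∀ r : ℚ,
    A.valuation (algebraMap ℚ Qbar r) ≤ 1 →
    A.valuation (algebraMap ℚ Qbar r) < 1 ∨ A.valuation (algebraMap ℚ Qbar r - 1) < 1

/-- (WP5) an element of `Q̄` fixed by the whole Galois group is rational. -/
def Stmt_fixed_rat : Prop :=
  ∀ x : Qbar, (∀ σ : Gal, σ x = x) → ∃ r : ℚ, algebraMap ℚ Qbar r = x

end frey

end Fermat.Agent.S13.WP3
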