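/-
S13 / WP3 piece (2B), helper5: on the model `y² + x y = x³ + a x² + b x` at a place of residue
characteristic 2, the kernel of reduction `E₁` is a subgroup without `n`-torsion for `n` a unit.
Port of the S05 files `H28_E1add.lean`, `H28_F1.lean` (helper28) to `a₁ = 1`.
Local parameter `z = x / y`; key identity (line data `ℓ, μ`):
`z₃ - z₁ - z₂ = z₃ (z₁ + z₂) + (2 b ℓ / μ - a - ℓ) z₁ z₂ z₃`.
-/
import Fermat.Agent.S13.WP3.H5_Line

set_option autoImplicit false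

namespace Fermat.Agent.S13.WP3.H5

open WeierstrassCurve WeierstrassCurve.Affine

variable {L : Type*} [Field L]

/-- The curve equation of the model. -/
lemma eqn2 {A : ValuationSubring L} {W : Affine L} (hyp : ModelHyp2 A W) {x y : L}
    (h : W.Nonsingular x y) : y ^ 2 + x * y = x ^ 3 + W.a₂ * x ^ 2 + W.a₄ * x :=
  (frey_equation_iff hyp.a₁ hyp.a₃ hyp.a₆ x y).1 h.1

/-- `|x³ + a x² + b x| = |x|³` for `|x| > 1`. -/
lemma val_cubic {A : ValuationSubring L} {W : Affine L} (hyp : ModelHyp2 A W) {x : L}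
    (hx : 1 < A.valuation x) :
    A.valuation (x ^ 3 + W.a₂ * x ^ 2 + W.a₄ * x) = A.valuation x ^ 3 := by
  have hx0 : 0 < A.valuation x := lt_trans zero_lt_one hx
  have e1 : A.valuation (W.a₂ * x ^ 2) < A.valuation (x ^ 3) := by
    rw [map_mul, map_pow, map_pow]
    calc A.valuation W.a₂ * A.valuation x ^ 2 ≤ 1 * A.valuation x ^ 2 := by
          gcongr; exact hyp.a_le
      _ = A.valuation x ^ 2 := one_mul _
      _ < A.valuation x ^ 3 := pow_lt_pow_right₀ hx (by norm_num)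
  have e2 : A.valuation (W.a₄ * x) < A.valuation (x ^ 3) := by
    rw [map_mul, map_pow]
    calc A.valuation W.a₄ * A.valuation x ≤ 1 * A.valuation x := by
          gcongr; exact hyp.b_lt.le
      _ = A.valuation x ^ 1 := by rw [one_mul, pow_one]
      _ < A.valuation x ^ 3 := pow_lt_pow_right₀ hx (by norm_num)
  have e3 : A.valuation (W.a₂ * x ^ 2 + W.a₄ * x) < A.valuation (x ^ 3) :=
    Valuation.map_add_lt _ e1 e2
  rw [add_assoc, Valuation.map_add_eq_of_lt_left _ e3, map_pow]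

/-- On `E₁`: `|x| < |y|`. -/
lemma val_x_lt_val_y {A : ValuationSubring L} {W : Affine L} (hyp : ModelHyp2 A W) {x y : L}
    (h : W.Nonsingular x y) (hx : 1 < A.valuation x) : A.valuation x < A.valuation y := by
  by_contra hcon
  have hcon := not_lt.mp hcon
  have hx0 : 0 < A.valuation x := lt_trans zero_lt_one hx
  have h1 : A.valuation (y ^ 2 + x * y) ≤ A.valuation x ^ 2 := by
    refine Valuation.map_add_le _ ?_ ?_
    · rw [map_pow]; exact pow_le_pow_left₀ zero_le hcon 2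
    · rw [map_mul, pow_two]; gcongr
  rw [eqn2 hyp h, val_cubic hyp hx] at h1
  exact absurd (pow_lt_pow_right₀ hx (by norm_num : 2 < 3)) (not_lt.2 h1)

/-- On `E₁`: `|y|² = |x|³`. -/
lemma val_y_sq2 {A : ValuationSubring L} {W : Affine L} (hyp : ModelHyp2 A W) {x y : L}
    (h : W.Nonsingular x y) (hx : 1 < A.valuation x) :
    A.valuation y ^ 2 = A.valuation x ^ 3 := by
  have hxy := val_x_lt_val_y hyp h hx
  have hy0 : 0 < A.valuation y := lt_trans (lt_trans zero_lt_one hx) hxy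
  have h1 : A.valuation (x * y) < A.valuation (y ^ 2) := by
    rw [map_mul, map_pow, pow_two]
    exact mul_lt_mul_of_pos_right hxy hy0
  have h2 : A.valuation (y ^ 2 + x * y) = A.valuation (y ^ 2) :=
    Valuation.map_add_eq_of_lt_left _ h1
  rw [eqn2 hyp h, val_cubic hyp hx, map_pow] at h2
  exact h2.symm

/-- On `E₁`: `1 < |y|`. -/
lemma one_lt_val_y2 {A : ValuationSubring L} {W : Affine L} (hyp : ModelHyp2 A W) {x y : L}
    (h : W.Nonsingular x y) (hx : 1 < A.valuation x) : 1 < A.valuation y :=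
  lt_trans hx (val_x_lt_val_y hyp h hx)

/-- On `E₁`: `|x / y| < 1`. -/
lemma val_z_lt_one2 {A : ValuationSubring L} {W : Affine L} (hyp : ModelHyp2 A W) {x y : L}
    (h : W.Nonsingular x y) (hx : 1 < A.valuation x) : A.valuation (x / y) < 1 := by
  have hy0 : 0 < A.valuation y := lt_trans zero_lt_one (one_lt_val_y2 hyp h hx)
  rw [map_div₀, div_lt_one₀ hy0]
  exact val_x_lt_val_y hyp h hx

/-- On `E₁`: `|x / y|² |x| = 1`. -/
lemma val_z_sq_mul {A : ValuationSubring L} {W : Affine L} (hyp : ModelHyp2 A W) {x y : L}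
    (h : W.Nonsingular x y) (hx : 1 < A.valuation x) :
    A.valuation (x / y) ^ 2 * A.valuation x = 1 := by
  have hy0 : A.valuation y ≠ 0 := (lt_trans zero_lt_one (one_lt_val_y2 hyp h hx)).ne'
  rw [map_div₀, div_pow, val_y_sq2 hyp h hx, div_mul_eq_mul_div, ← pow_succ]
  exact div_self (pow_ne_zero _ (lt_trans zero_lt_one hx).ne')

lemma ne_zero_of_one_lt {A : ValuationSubring L} {x : L} (hx : 1 < A.valuation x) : x ≠ 0 := by
  rintro rfl
  simp at hx

/-- From the line data: `(b - x₁x₂) x₁ x₂ = μ (x₂ y₁ + x₁ y₂ + x₁ x₂)`. -/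
lemma line_mu_identity2 (b x₁ y₁ x₂ y₂ x₃ ℓ μ : L)
    (e1 : y₁ = ℓ * x₁ + μ) (e2 : y₂ = ℓ * x₂ + μ)
    (V2 : x₁ * x₂ + x₁ * x₃ + x₂ * x₃ = b - (2 * ℓ + 1) * μ)
    (V3 : x₁ * x₂ * x₃ = μ ^ 2) :
    (b - x₁ * x₂) * (x₁ * x₂) = μ * (x₂ * y₁ + x₁ * y₂ + x₁ * x₂) := by
  rw [e1, e2]
  linear_combination (-(x₁ * x₂)) * V2 + (x₁ + x₂) * V3

/-- Affine case of closure of `E₁` under addition. -/
lemma one_lt_val_add2 [DecidableEq L]
    {A : ValuationSubring L} {W : Affine L} (hyp : ModelHyp2 A W)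
    {x₁ y₁ x₂ y₂ x₃ y₃ : L} (h₁ : W.Nonsingular x₁ y₁) (h₂ : W.Nonsingular x₂ y₂)
    (h₃ : W.Nonsingular x₃ y₃) (hx₁ : 1 < A.valuation x₁) (hx₂ : 1 < A.valuation x₂)
    (hadd : Point.some x₁ y₁ h₁ + Point.some x₂ y₂ h₂ = Point.some x₃ y₃ h₃) :
    1 < A.valuation x₃ := by
  obtain ⟨ℓ, μ, e1, e2, -, -, V2, V3⟩ :=
    line2 W hyp.a₁ hyp.a₃ hyp.a₆ x₁ y₁ x₂ y₂ x₃ y₃ h₁ h₂ h₃ hadd
  have hI := line_mu_identity2 W.a₄ x₁ y₁ x₂ y₂ x₃ ℓ μ e1 e2 V2 V3
  set X₁ := A.valuation x₁ with hX₁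
  set X₂ := A.valuation x₂ with hX₂
  have hX₁0 : 0 < X₁ := lt_trans zero_lt_one hx₁
  have hX₂0 : 0 < X₂ := lt_trans zero_lt_one hx₂
  have hX12 : 1 < X₁ * X₂ := one_lt_mul_of_lt_of_le' hx₁ hx₂.le
  have hX120 : 0 < X₁ * X₂ := lt_trans zero_lt_one hX12
  have hY₁ : A.valuation y₁ ^ 2 = X₁ ^ 3 := val_y_sq2 hyp h₁ hx₁
  have hY₂ : A.valuation y₂ ^ 2 = X₂ ^ 3 := val_y_sq2 hyp h₂ hx₂
  -- `|b - x₁x₂| = |x₁x₂|`
  have hb : A.valuation (W.a₄ - x₁ * x₂) = X₁ * X₂ := by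
    have : A.valuation W.a₄ < A.valuation (x₁ * x₂) := by
      rw [map_mul]; exact lt_trans hyp.b_lt hX12
    rw [Valuation.map_sub_eq_of_lt_right _ this, map_mul]
  -- `|μ| |S| = |x₁x₂|²`
  have hprod : A.valuation μ * A.valuation (x₂ * y₁ + x₁ * y₂ + x₁ * x₂) = (X₁ * X₂) ^ 2 := by
    rw [← map_mul, ← hI, map_mul, hb, map_mul, pow_two]
  -- `|S|² < |x₁x₂|³`
  have hS : A.valuation (x₂ * y₁ + x₁ * y₂ + x₁ * x₂) ^ 2 < (X₁ * X₂) ^ 3 := by
    have t1 : A.valuation (x₂ * y₁) ^ 2 < (X₁ * X₂) ^ 3 := by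
      rw [map_mul, mul_pow, hY₁, mul_pow]
      calc X₂ ^ 2 * X₁ ^ 3 = X₁ ^ 3 * X₂ ^ 2 := mul_comm _ _
        _ < X₁ ^ 3 * X₂ ^ 3 := by
          have : X₂ ^ 2 < X₂ ^ 3 := pow_lt_pow_right₀ hx₂ (by norm_num)
          have h3 : 0 < X₁ ^ 3 := pow_pos hX₁0 3
          gcongr
    have t2 : A.valuation (x₁ * y₂) ^ 2 < (X₁ * X₂) ^ 3 := by
      rw [map_mul, mul_pow, hY₂, mul_pow]
      have : X₁ ^ 2 < X₁ ^ 3 := pow_lt_pow_right₀ hx₁ (by norm_num)
      have h3 : 0 < X₂ ^ 3 := pow_pos hX₂0 3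
      gcongr
    have t3 : A.valuation (x₁ * x₂) ^ 2 < (X₁ * X₂) ^ 3 := by
      rw [map_mul]
      exact pow_lt_pow_right₀ hX12 (by norm_num)
    rcases Valuation.map_add' A.valuation (x₂ * y₁ + x₁ * y₂) (x₁ * x₂) with h | h
    · rcases Valuation.map_add' A.valuation (x₂ * y₁) (x₁ * y₂) with h' | h'
      · exact lt_of_le_of_lt (pow_le_pow_left₀ zero_le (h.trans h') 2) t1
      · exact lt_of_le_of_lt (pow_le_pow_left₀ zero_le (h.trans h') 2) t2
    · exact lt_of_le_of_lt (pow_le_pow_left₀ zero_le h 2) t3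
  -- `|μ|² > |x₁x₂|`
  have hμ : X₁ * X₂ < A.valuation μ ^ 2 := by
    by_contra hcon
    have hcon := not_lt.mp hcon
    have h4 : (X₁ * X₂) ^ 4 =
        A.valuation μ ^ 2 * A.valuation (x₂ * y₁ + x₁ * y₂ + x₁ * x₂) ^ 2 := by
      rw [← mul_pow, hprod, ← pow_mul]
    have h5 : A.valuation μ ^ 2 * A.valuation (x₂ * y₁ + x₁ * y₂ + x₁ * x₂) ^ 2
        < (X₁ * X₂) ^ 4 := by
      calc A.valuation μ ^ 2 * A.valuation (x₂ * y₁ + x₁ * y₂ + x₁ * x₂) ^ 2
          ≤ (X₁ * X₂) * A.valuation (x₂ * y₁ + x₁ * y₂ + x₁ * x₂) ^ 2 := by gcongr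
        _ < (X₁ * X₂) * (X₁ * X₂) ^ 3 := by gcongr
        _ = (X₁ * X₂) ^ 4 := by rw [← pow_succ']
    rw [← h4] at h5
    exact lt_irrefl _ h5
  have h6 : A.valuation (x₁ * x₂ * x₃) = A.valuation μ ^ 2 := by rw [V3, map_pow]
  rw [map_mul, map_mul] at h6
  by_contra hcon
  have hcon := not_lt.mp hcon
  have : X₁ * X₂ * A.valuation x₃ ≤ X₁ * X₂ * 1 := by gcongr
  rw [h6, mul_one] at this
  exact absurd hμ (not_lt.mpr this)

/-- Piece (2B1): `E₁` is closed under addition. -/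
theorem E1_add2 [DecidableEq L] : Stmt2_E1_add (L := L) := by
  intro A W hyp P Q hP hQ
  rcases P with _ | ⟨x₁, y₁, h₁⟩
  · have : (Point.zero : W.Point) + Q = Q := zero_add Q
    rw [this]; exact hQ
  rcases Q with _ | ⟨x₂, y₂, h₂⟩
  · have : Point.some x₁ y₁ h₁ + (Point.zero : W.Point) = Point.some x₁ y₁ h₁ := add_zero _
    rw [this]; exact hP
  rcases hR : Point.some x₁ y₁ h₁ + Point.some x₂ y₂ h₂ with _ | ⟨x₃, y₃, h₃⟩
  · trivial
  · exact one_lt_val_add2 hyp h₁ h₂ h₃ hP hQ hR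

/-- Piece (2B2): `E₁` is closed under negation. -/
theorem E1_neg2 [DecidableEq L] : Stmt2_E1_neg (L := L) := by
  intro A W hyp P hP
  rcases P with _ | ⟨x, y, h⟩
  · exact hP
  · rw [Point.neg_some]
    exact hP

/-- The local parameter `z = x / y` (with `z(0) = 0`). -/
noncomputable def zc2 {W : Affine L} : W.Point → L
  | .zero => 0
  | .some x y _ => x / y

@[simp] lemma zc2_zero {W : Affine L} : zc2 (0 : W.Point) = 0 := rfl

@[simp] lemma zc2_some {W : Affine L} {x y : L} (h : W.Nonsingular x y) :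
    zc2 (Point.some x y h) = x / y := rfl

lemma val_zc2_lt_one {A : ValuationSubring L} {W : Affine L} (hyp : ModelHyp2 A W) (P : W.Point)
    (hP : InE1 A P) : A.valuation (zc2 P) < 1 := by
  rcases P with _ | ⟨x, y, h⟩
  · show A.valuation (0 : L) < 1
    simp
  · exact val_z_lt_one2 hyp h hP

lemma zc2_ne_zero {A : ValuationSubring L} {W : Affine L} (hyp : ModelHyp2 A W) (P : W.Point)
    (hP : InE1 A P) (hP0 : P ≠ 0) : zc2 P ≠ 0 := by
  rcases P with _ | ⟨x, y, h⟩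
  · exact absurd rfl hP0
  · have hx : 1 < A.valuation x := hP
    rw [zc2_some]
    exact div_ne_zero (ne_zero_of_one_lt hx) (ne_zero_of_one_lt (one_lt_val_y2 hyp h hx))

/-- `|z(-P) + z(P)| < |z(P)|` on `E₁ ∖ {0}`. -/
lemma val_zc2_neg_add {A : ValuationSubring L} {W : Affine L} (hyp : ModelHyp2 A W)
    (P : W.Point) (hP : InE1 A P) (hP0 : P ≠ 0) :
    A.valuation (zc2 (-P) + zc2 P) < A.valuation (zc2 P) := by
  rcases P with _ | ⟨x, y, h⟩
  · exact absurd rfl hP0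
  · have hx : 1 < A.valuation x := hP
    have hx0 : x ≠ 0 := ne_zero_of_one_lt hx
    have hy1 := one_lt_val_y2 hyp h hx
    have hy0 : y ≠ 0 := ne_zero_of_one_lt hy1
    have hxy := val_x_lt_val_y hyp h hx
    have hyx : A.valuation (-y - x) = A.valuation y := by
      rw [Valuation.map_sub_eq_of_lt_left _ (by rwa [Valuation.map_neg]), Valuation.map_neg]
    have hyx0 : -y - x ≠ 0 := by
      intro h0; rw [h0, map_zero] at hyx
      exact (lt_trans zero_lt_one hy1).ne hyx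
    rw [Point.neg_some, zc2_some, zc2_some, frey_negY hyp.a₁ hyp.a₃]
    have e : x / (-y - x) + x / y = -(x / (-y - x)) * (x / y) := by
      field_simp
      ring
    rw [e, map_mul, Valuation.map_neg]
    have hz0 : 0 < A.valuation (x / y) := by
      rw [Valuation.pos_iff]; exact div_ne_zero hx0 hy0
    have hlt : A.valuation (x / (-y - x)) < 1 := by
      rw [map_div₀, hyx, ← map_div₀]
      exact val_z_lt_one2 hyp h hx
    calc A.valuation (x / (-y - x)) * A.valuation (x / y) < 1 * A.valuation (x / y) := by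
          gcongr
      _ = A.valuation (x / y) := one_mul _

/-- The algebraic identity behind the key estimate. -/
lemma key_identity2 (a b x₁ y₁ x₂ y₂ x₃ y₃ ℓ μ : L)
    (e1 : y₁ = ℓ * x₁ + μ) (e2 : y₂ = ℓ * x₂ + μ) (e3 : -y₃ - x₃ = ℓ * x₃ + μ)
    (V1 : x₁ + x₂ + x₃ = ℓ ^ 2 + ℓ - a)
    (V2 : x₁ * x₂ + x₁ * x₃ + x₂ * x₃ = b - (2 * ℓ + 1) * μ)
    (V3 : x₁ * x₂ * x₃ = μ ^ 2) (hy₁ : y₁ ≠ 0) (hy₂ : y₂ ≠ 0) (hy₃ : y₃ ≠ 0) (hμ : μ ≠ 0) :
    x₃ / y₃ - x₁ / y₁ - x₂ / y₂ = (x₁ / y₁ + x₂ / y₂) * (x₃ / y₃)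
      + (2 * b * ℓ / μ - a) * ((x₁ / y₁) * (x₂ / y₂) * (x₃ / y₃))
      - ℓ * ((x₁ / y₁) * (x₂ / y₂) * (x₃ / y₃)) := by
  have hy₃' : y₃ = -(ℓ * x₃ + μ) - x₃ := by linear_combination -e3
  have S : x₃ * y₁ * y₂ - x₁ * y₂ * y₃ - x₂ * y₁ * y₃ - x₁ * x₃ * y₂ - x₂ * x₃ * y₁
      = 2 * b * ℓ * μ - (a + ℓ) * μ ^ 2 := by
    rw [e1, e2, hy₃']
    linear_combination (3 * ℓ ^ 2) * V3 + (2 * ℓ * μ) * V2 + μ ^ 2 * V1
  field_simp
  linear_combination (μ) * S + ((a + ℓ) * μ - 2 * b * ℓ) * V3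

/-- `a * b * c < b` when `a < 1`, `c ≤ 1`, `0 < b`. -/
lemma mul3_lt {Γ : Type*} [LinearOrderedCommGroupWithZero Γ] {a b c : Γ}
    (ha : a < 1) (hb : 0 < b) (hc : c ≤ 1) : a * b * c < b := by
  have h1 : a * c ≤ a * 1 := by gcongr
  have h2 : a * c < 1 := lt_of_le_of_lt (by simpa using h1) ha
  calc a * b * c = b * (a * c) := by ac_rfl
    _ < b * 1 := by gcongr
    _ = b := mul_one b

/-- Key estimate: for `P₁, P₂, P₁ + P₂` affine points of `E₁` with `|z₁| ≤ |z₂|`: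
`|z₃ - z₁ - z₂| < |z₂|`. -/
lemma key_estimate2 [DecidableEq L]
    {A : ValuationSubring L} {W : Affine L} (hyp : ModelHyp2 A W)
    {x₁ y₁ x₂ y₂ x₃ y₃ : L} (h₁ : W.Nonsingular x₁ y₁) (h₂ : W.Nonsingular x₂ y₂)
    (h₃ : W.Nonsingular x₃ y₃) (hx₁ : 1 < A.valuation x₁) (hx₂ : 1 < A.valuation x₂)
    (hx₃ : 1 < A.valuation x₃) (h12 : A.valuation (x₁ / y₁) ≤ A.valuation (x₂ / y₂))
    (hadd : Point.some x₁ y₁ h₁ + Point.some x₂ y₂ h₂ = Point.some x₃ y₃ h₃) :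
    A.valuation (x₃ / y₃ - x₁ / y₁ - x₂ / y₂) < A.valuation (x₂ / y₂) := by
  obtain ⟨ℓ, μ, e1, e2, e3, V1, V2, V3⟩ :=
    line2 W hyp.a₁ hyp.a₃ hyp.a₆ x₁ y₁ x₂ y₂ x₃ y₃ h₁ h₂ h₃ hadd
  have hx₁0 : x₁ ≠ 0 := ne_zero_of_one_lt hx₁
  have hx₂0 : x₂ ≠ 0 := ne_zero_of_one_lt hx₂
  have hx₃0 : x₃ ≠ 0 := ne_zero_of_one_lt hx₃
  have hy₁ : y₁ ≠ 0 := ne_zero_of_one_lt (one_lt_val_y2 hyp h₁ hx₁)
  have hy₂ : y₂ ≠ 0 := ne_zero_of_one_lt (one_lt_val_y2 hyp h₂ hx₂)
  have hy₃ : y₃ ≠ 0 := ne_zero_of_one_lt (one_lt_val_y2 hyp h₃ hx₃)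
  have hμ : μ ≠ 0 := by
    intro h0
    rw [h0] at V3
    have : x₁ * x₂ * x₃ ≠ 0 := mul_ne_zero (mul_ne_zero hx₁0 hx₂0) hx₃0
    exact this (by rw [V3]; ring)
  rw [key_identity2 _ _ _ _ _ _ _ _ _ _ e1 e2 e3 V1 V2 V3 hy₁ hy₂ hy₃ hμ]
  set z₁ := x₁ / y₁ with hz₁
  set z₂ := x₂ / y₂ with hz₂
  set z₃ := x₃ / y₃ with hz₃
  have hz₁1 : A.valuation z₁ < 1 := val_z_lt_one2 hyp h₁ hx₁
  have hz₂1 : A.valuation z₂ < 1 := val_z_lt_one2 hyp h₂ hx₂
  have hz₃1 : A.valuation z₃ < 1 := val_z_lt_one2 hyp h₃ hx₃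
  have hz₁0 : 0 < A.valuation z₁ := by
    rw [Valuation.pos_iff]; exact div_ne_zero hx₁0 hy₁
  have hz₂0 : 0 < A.valuation z₂ := by
    rw [Valuation.pos_iff]; exact div_ne_zero hx₂0 hy₂
  have hz₃0 : 0 < A.valuation z₃ := by
    rw [Valuation.pos_iff]; exact div_ne_zero hx₃0 hy₃
  have q₁ : A.valuation z₁ ^ 2 * A.valuation x₁ = 1 := val_z_sq_mul hyp h₁ hx₁
  have q₂ : A.valuation z₂ ^ 2 * A.valuation x₂ = 1 := val_z_sq_mul hyp h₂ hx₂
  have q₃ : A.valuation z₃ ^ 2 * A.valuation x₃ = 1 := val_z_sq_mul hyp h₃ hx₃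
  -- `|x₂| ≤ |x₁|`
  have hx21 : A.valuation x₂ ≤ A.valuation x₁ := by
    have h1 : A.valuation z₁ ^ 2 ≤ A.valuation z₂ ^ 2 := pow_le_pow_left₀ zero_le h12 2
    have h2 : A.valuation z₁ ^ 2 * A.valuation x₂ ≤ A.valuation z₁ ^ 2 * A.valuation x₁ := by
      calc A.valuation z₁ ^ 2 * A.valuation x₂ ≤ A.valuation z₂ ^ 2 * A.valuation x₂ := by
            gcongr
        _ = A.valuation z₁ ^ 2 * A.valuation x₁ := by rw [q₁, q₂]
    exact le_of_mul_le_mul_left h2 (pow_pos hz₁0 2)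
  have hμv : 0 < A.valuation μ := by
    rw [Valuation.pos_iff]; exact hμ
  have hM : A.valuation μ ^ 2 = A.valuation x₁ * A.valuation x₂ * A.valuation x₃ := by
    rw [← map_pow, ← V3, map_mul, map_mul]
  -- `|ℓ|² < |x₁| |x₃|`
  have hℓ13 : A.valuation ℓ ^ 2 < A.valuation x₁ * A.valuation x₃ := by
    have c1 : A.valuation x₁ < A.valuation x₁ * A.valuation x₃ := by
      calc A.valuation x₁ = A.valuation x₁ * 1 := (mul_one _).symm
        _ < A.valuation x₁ * A.valuation x₃ := by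
          have := lt_trans zero_lt_one hx₁
          gcongr
    have c3 : A.valuation x₃ < A.valuation x₁ * A.valuation x₃ := by
      calc A.valuation x₃ = 1 * A.valuation x₃ := (one_mul _).symm
        _ < A.valuation x₁ * A.valuation x₃ := by
          have := lt_trans zero_lt_one hx₃
          gcongr
    rcases le_or_gt (A.valuation ℓ) 1 with hl | hl
    · exact lt_of_le_of_lt (pow_le_one₀ zero_le hl) (lt_trans hx₁ c1)
    · have e : A.valuation (ℓ ^ 2 + ℓ) = A.valuation ℓ ^ 2 := by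
        rw [Valuation.map_add_eq_of_lt_left, map_pow]
        rw [map_pow]
        calc A.valuation ℓ = A.valuation ℓ ^ 1 := (pow_one _).symm
          _ < A.valuation ℓ ^ 2 := pow_lt_pow_right₀ hl (by norm_num)
      have e' : ℓ ^ 2 + ℓ = x₁ + x₂ + x₃ + W.a₂ := by linear_combination -V1
      rw [← e, e']
      refine lt_of_le_of_lt (Valuation.map_add_le_max' _ _ _) (max_lt ?_ ?_)
      · refine lt_of_le_of_lt (Valuation.map_add_le_max' _ _ _) (max_lt ?_ c3)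
        refine lt_of_le_of_lt (Valuation.map_add_le_max' _ _ _) (max_lt c1 ?_)
        exact lt_of_le_of_lt hx21 c1
      · exact lt_of_le_of_lt hyp.a_le (lt_trans hx₁ c1)
  -- `|ℓ| ≤ |μ|`
  have hℓμ : A.valuation ℓ ≤ A.valuation μ := by
    refine (pow_le_pow_iff_left₀ zero_le zero_le (by norm_num : (2 : ℕ) ≠ 0)).1 ?_
    rw [hM]
    refine hℓ13.le.trans ?_
    calc A.valuation x₁ * A.valuation x₃ = A.valuation x₁ * 1 * A.valuation x₃ := by
          rw [mul_one]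
      _ ≤ A.valuation x₁ * A.valuation x₂ * A.valuation x₃ := by
          gcongr
  -- `|2 b ℓ / μ - a| ≤ 1`
  have hR : A.valuation (2 * W.a₄ * ℓ / μ - W.a₂) ≤ 1 := by
    refine Valuation.map_sub_le _ ?_ hyp.a_le
    rw [map_div₀, map_mul, map_mul, div_le_one₀ hμv]
    calc A.valuation 2 * A.valuation W.a₄ * A.valuation ℓ ≤ 1 * 1 * A.valuation μ := by
          gcongr
          · exact hyp.two.le
          · exact hyp.b_lt.le
      _ = A.valuation μ := by rw [one_mul, one_mul]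
  -- `|ℓ z₁ z₃| < 1`
  have hℓz : A.valuation ℓ * A.valuation z₁ * A.valuation z₃ < 1 := by
    have h1 : (A.valuation ℓ * A.valuation z₁ * A.valuation z₃) ^ 2 < 1 ^ 2 := by
      rw [mul_pow, mul_pow, one_pow]
      calc A.valuation ℓ ^ 2 * A.valuation z₁ ^ 2 * A.valuation z₃ ^ 2
          < (A.valuation x₁ * A.valuation x₃) * A.valuation z₁ ^ 2 * A.valuation z₃ ^ 2 := by
            have := pow_pos hz₁0 2
            have := pow_pos hz₃0 2
            gcongr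
        _ = (A.valuation z₁ ^ 2 * A.valuation x₁) * (A.valuation z₃ ^ 2 * A.valuation x₃) := by
            ac_rfl
        _ = 1 := by rw [q₁, q₃, one_mul]
    exact lt_of_pow_lt_pow_left₀ 2 zero_le h1
  -- the three terms
  have t1 : A.valuation ((z₁ + z₂) * z₃) < A.valuation z₂ := by
    rw [map_mul]
    have : A.valuation (z₁ + z₂) ≤ A.valuation z₂ := Valuation.map_add_le _ h12 le_rfl
    calc A.valuation (z₁ + z₂) * A.valuation z₃ ≤ A.valuation z₂ * A.valuation z₃ := by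
          gcongr
      _ < A.valuation z₂ * 1 := by gcongr
      _ = A.valuation z₂ := mul_one _
  have t2 : A.valuation ((2 * W.a₄ * ℓ / μ - W.a₂) * (z₁ * z₂ * z₃)) < A.valuation z₂ := by
    rw [map_mul, map_mul, map_mul]
    calc A.valuation (2 * W.a₄ * ℓ / μ - W.a₂) *
          (A.valuation z₁ * A.valuation z₂ * A.valuation z₃)
        ≤ 1 * (A.valuation z₁ * A.valuation z₂ * A.valuation z₃) := by gcongr
      _ = A.valuation z₁ * A.valuation z₂ * A.valuation z₃ := one_mul _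
      _ < A.valuation z₂ := mul3_lt hz₁1 hz₂0 hz₃1.le
  have t3 : A.valuation (ℓ * (z₁ * z₂ * z₃)) < A.valuation z₂ := by
    rw [map_mul, map_mul, map_mul]
    calc A.valuation ℓ * (A.valuation z₁ * A.valuation z₂ * A.valuation z₃)
        = (A.valuation ℓ * A.valuation z₁ * A.valuation z₃) * A.valuation z₂ := by ac_rfl
      _ < 1 * A.valuation z₂ := by gcongr
      _ = A.valuation z₂ := one_mul _
  exact Valuation.map_sub_lt _ (Valuation.map_add_lt _ t1 t2) t3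

lemma val_natCast_le_one (A : ValuationSubring L) (k : ℕ) : A.valuation (k : L) ≤ 1 := by
  rw [ValuationSubring.valuation_le_one_iff]
  exact natCast_mem A k

/-- The induction behind F1: for `P ∈ E₁`, `P ≠ 0` and all `k`,
`k • P ∈ E₁` and `|z(k • P) - k z(P)| < |z(P)|`. -/
lemma nsmul_estimate2 [DecidableEq L]
    {A : ValuationSubring L} {W : Affine L} (hyp : ModelHyp2 A W) (P : W.Point)
    (hP : InE1 A P) (hP0 : P ≠ 0) (k : ℕ) :
    InE1 A (k • P) ∧ A.valuation (zc2 (k • P) - (k : L) * zc2 P) < A.valuation (zc2 P) := by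
  have hzP : zc2 P ≠ 0 := zc2_ne_zero hyp P hP hP0
  have hzPv : 0 < A.valuation (zc2 P) := by rw [Valuation.pos_iff]; exact hzP
  induction k with
  | zero =>
    refine ⟨by rw [zero_smul]; trivial, ?_⟩
    rw [zero_smul, zc2_zero, Nat.cast_zero, zero_mul, sub_zero, _root_.map_zero]
    exact hzPv
  | succ k ih =>
    obtain ⟨ihE, ihz⟩ := ih
    have hE' : InE1 A ((k + 1) • P) := by
      rw [succ_nsmul]
      exact E1_add2 A W hyp _ _ ihE hP
    refine ⟨hE', ?_⟩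
    -- `|z(k • P)| ≤ |z(P)|`
    have hle : A.valuation (zc2 (k • P)) ≤ A.valuation (zc2 P) := by
      have e : zc2 (k • P) = (zc2 (k • P) - (k : L) * zc2 P) + (k : L) * zc2 P := by ring
      rw [e]
      refine Valuation.map_add_le _ ihz.le ?_
      rw [map_mul]
      calc A.valuation (k : L) * A.valuation (zc2 P) ≤ 1 * A.valuation (zc2 P) := by
            gcongr; exact val_natCast_le_one A k
        _ = A.valuation (zc2 P) := one_mul _
    rw [succ_nsmul] at hE' ⊢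
    push_cast
    rcases hQ : k • P with _ | ⟨x₁, y₁, h₁⟩
    · -- `k • P = 0`
      rw [hQ] at ihz
      have e0 : (Point.zero : W.Point) + P = P := zero_add P
      rw [e0]
      have e1 : zc2 P - ((k : L) + 1) * zc2 P = zc2 (Point.zero : W.Point) - (k : L) * zc2 P := by
        show zc2 P - ((k : L) + 1) * zc2 P = 0 - (k : L) * zc2 P
        ring
      rw [e1]
      exact ihz
    · rw [hQ] at ihz ihE hE' hle
      rcases hQ' : Point.some x₁ y₁ h₁ + P with _ | ⟨x₃, y₃, h₃⟩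
      · -- `k • P + P = 0`
        have e0 : Point.some x₁ y₁ h₁ = -P := eq_neg_of_add_eq_zero_left hQ'
        rw [e0] at ihz
        have e1 : zc2 (Point.zero : W.Point) - ((k : L) + 1) * zc2 P =
            (zc2 (-P) - (k : L) * zc2 P) - (zc2 (-P) + zc2 P) := by
          show 0 - ((k : L) + 1) * zc2 P = _
          ring
        rw [e1]
        exact Valuation.map_sub_lt _ ihz (val_zc2_neg_add hyp P hP hP0)
      · rw [hQ'] at hE'
        rcases P with _ | ⟨x₂, y₂, h₂⟩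
        · exact absurd rfl hP0
        · have hz := key_estimate2 hyp h₁ h₂ h₃ ihE hP hE' hle hQ'
          simp only [zc2_some] at ihz hzPv hz ⊢
          have e1 : x₃ / y₃ - ((k : L) + 1) * (x₂ / y₂) =
              (x₁ / y₁ - (k : L) * (x₂ / y₂)) + (x₃ / y₃ - x₁ / y₁ - x₂ / y₂) := by
            ring
          rw [e1]
          exact Valuation.map_add_lt _ ihz hz

/-- Piece (2B3) (F1): `E₁` has no `n`-torsion for `n` a unit of `A`. -/
theorem F1_2 [DecidableEq L] : Stmt2_F1 (L := L) := by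
  intro A W hyp P hP hP0 n hn hnP
  obtain ⟨-, hz⟩ := nsmul_estimate2 hyp P hP hP0 n
  rw [hnP, zc2_zero, zero_sub, Valuation.map_neg, map_mul, hn, one_mul] at hz
  exact lt_irrefl _ hz

end Fermat.Agent.S13.WP3.H5
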