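import Fermat.Agent.S13.WP3.Defs
import Fermat.Agent.S05.H15_Val

/-!
# S13 / WP3 piece 2E: arithmetic of the Frey model at the prime `2` (helper15)

* `Fermat.Agent.S13.WP3.H15.arith2 : Stmt2_arith`
* `Fermat.Agent.S13.WP3.H15.ratVal : Stmt2_ratVal`
* `Fermat.Agent.S13.WP3.H15.ratRes : Stmt2_ratRes`
-/

set_option autoImplicit false

namespace Fermat.Agent.S13.WP3.H15

open WeierstrassCurve WeierstrassCurve.Affine
open Fermat.Agent.S05.H15

local notation "K" => AlgebraicClosure ℚ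

/-- `|2| < 1` at a place over `2`. -/
theorem val_two_lt {A : ValuationSubring K} (hA : A.LiesOverPrime 2) :
    A.valuation (2 : K) < 1 := by
  have h : ((2 : ℕ) : K) ∈ A.nonunits := hA
  have := valuation_lt_one_of_mem_nonunits h
  simpa using this

theorem val_two_ne_zero (A : ValuationSubring K) : A.valuation (2 : K) ≠ 0 := by
  rw [Ne, map_eq_zero]
  exact two_ne_zero

/-- odd integers are units at a place over `2` -/
theorem val_odd {A : ValuationSubring K} (hA : A.LiesOverPrime 2) {n : ℤ}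
    (hn : ¬ (2 : ℤ) ∣ n) : A.valuation (n : K) = 1 := by
  have h : ((2 : ℕ) : K) ∈ A.nonunits := hA
  exact valuation_intCast_eq_one_of_not_dvd Nat.prime_two h (by exact_mod_cast hn)

/-- even integers are nonunits at a place over `2` -/
theorem val_even {A : ValuationSubring K} (hA : A.LiesOverPrime 2) {n : ℤ}
    (hn : (2 : ℤ) ∣ n) : A.valuation (n : K) < 1 := by
  have h : ((2 : ℕ) : K) ∈ A.nonunits := hA
  exact valuation_intCast_lt_one_of_dvd h (by exact_mod_cast hn)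

/-- a nonzero integer is `2 ^ k * m` with `m` odd -/
theorem int_two_pow_mul_odd {n : ℤ} (hn : n ≠ 0) :
    ∃ (k : ℕ) (m : ℤ), ¬ (2 : ℤ) ∣ m ∧ n = 2 ^ k * m := by
  have hfin : FiniteMultiplicity (2 : ℤ) n :=
    Int.finiteMultiplicity_iff.2 ⟨by decide, hn⟩
  obtain ⟨m, hm, hdvd⟩ := hfin.exists_eq_pow_mul_and_not_dvd
  exact ⟨_, m, hdvd, hm⟩

/-- valuation of a nonzero integer is a power of `|2|` -/
theorem val_int {A : ValuationSubring K} (hA : A.LiesOverPrime 2) {n : ℤ} (hn : n ≠ 0) :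
    ∃ k : ℕ, A.valuation (n : K) = A.valuation (2 : K) ^ k := by
  obtain ⟨k, m, hm, rfl⟩ := int_two_pow_mul_odd hn
  refine ⟨k, ?_⟩
  push_cast
  rw [map_mul, map_pow, val_odd hA hm, mul_one]

theorem ratVal : Stmt2_ratVal := by
  intro A hA r hr
  have hnum : r.num ≠ 0 := Rat.num_ne_zero.2 hr
  have hden : (r.den : ℤ) ≠ 0 := by exact_mod_cast r.den_ne_zero
  obtain ⟨k₁, h₁⟩ := val_int hA hnum
  obtain ⟨k₂, h₂⟩ := val_int hA hden
  refine ⟨(k₁ : ℤ) - k₂, ?_⟩
  have hr' : algebraMap ℚ K r = (r.num : K) / ((r.den : ℤ) : K) := by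
    conv_lhs => rw [← Rat.num_div_den r]
    simp
  rw [hr', map_div₀, h₁, h₂, zpow_sub₀ (val_two_ne_zero A), zpow_natCast, zpow_natCast]

theorem ratRes : Stmt2_ratRes := by
  intro A hA r hle
  have hr' : algebraMap ℚ K r = (r.num : K) / ((r.den : ℤ) : K) := by
    conv_lhs => rw [← Rat.num_div_den r]
    simp
  have hdenK : ((r.den : ℤ) : K) ≠ 0 := by
    have : (r.den : ℤ) ≠ 0 := by exact_mod_cast r.den_ne_zero
    exact_mod_cast this
  -- the denominator is odd
  have hdodd : ¬ (2 : ℤ) ∣ (r.den : ℤ) := by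
    intro hd
    have hnodd : ¬ (2 : ℤ) ∣ r.num := by
      intro hn
      have hcop : Nat.Coprime r.num.natAbs r.den := r.reduced
      have h1 : (2 : ℕ) ∣ r.num.natAbs := by
        have := Int.natAbs_dvd_natAbs.2 hn
        simpa using this
      have h2 : (2 : ℕ) ∣ r.den := by exact_mod_cast hd
      have := Nat.dvd_gcd h1 h2
      rw [hcop] at this
      omega
    have h1 : A.valuation ((r.den : ℤ) : K) < 1 := val_even hA hd
    have h2 : A.valuation (r.num : K) = 1 := val_odd hA hnodd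
    rw [hr', map_div₀, h2] at hle
    have h3 : A.valuation ((r.den : ℤ) : K) ≠ 0 := by
      rw [Ne, map_eq_zero]; exact hdenK
    rw [div_le_iff₀ (zero_lt_iff.2 h3), one_mul] at hle
    exact absurd h1 (not_lt.2 hle)
  have hden1 : A.valuation ((r.den : ℤ) : K) = 1 := val_odd hA hdodd
  by_cases hn : (2 : ℤ) ∣ r.num
  · left
    rw [hr', map_div₀, hden1, div_one]
    exact val_even hA hn
  · right
    have h2 : (2 : ℤ) ∣ r.num - r.den := by omega
    have : algebraMap ℚ K r - 1 = ((r.num - r.den : ℤ) : K) / ((r.den : ℤ) : K) := by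
      rw [hr']
      field_simp
      push_cast
      ring
    rw [this, map_div₀, hden1, div_one]
    exact val_even hA h2

/-! ### The Frey package at `2` -/

theorem frey_two_dvd_b (P : FreyPackage) : (2 : ℤ) ∣ P.b :=
  (ZMod.intCast_zmod_eq_zero_iff_dvd P.b 2).1 P.hb2

theorem frey_a_modEq (P : FreyPackage) : P.a ≡ -1 [ZMOD 4] := by
  have h : (P.a : ZMod 4) = ((-1 : ℤ) : ZMod 4) := by
    rw [P.ha4]; decide
  exact (ZMod.intCast_eq_intCast_iff P.a (-1) 4).1 h

theorem frey_a_pow_modEq (P : FreyPackage) : P.a ^ P.p ≡ -1 [ZMOD 4] := by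
  have h := (frey_a_modEq P).pow P.p
  rwa [P.hp_odd.neg_one_pow] at h

theorem frey_a_odd (P : FreyPackage) : ¬ (2 : ℤ) ∣ P.a := by
  intro h
  have h1 := frey_a_modEq P
  have h2 : P.a % 4 = 3 := by
    have := h1
    unfold Int.ModEq at this
    omega
  omega

theorem frey_four_dvd (P : FreyPackage) : (4 : ℤ) ∣ P.b ^ P.p - 1 - P.a ^ P.p := by
  obtain ⟨b₁, hb₁⟩ := frey_two_dvd_b P
  have hp2 : 2 ≤ P.p := le_trans (by norm_num) P.hp5
  have h4 : (4 : ℤ) ∣ P.b ^ P.p := by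
    obtain ⟨k, hk⟩ := Nat.exists_eq_add_of_le hp2
    rw [hb₁, hk, pow_add, mul_pow]
    exact Dvd.dvd.mul_right ⟨b₁ ^ 2, by ring⟩ _
  have h5 := frey_a_pow_modEq P
  have h6 : (4 : ℤ) ∣ P.a ^ P.p + 1 := by
    have := h5.dvd
    have h7 : P.a ^ P.p + 1 = -(-1 - P.a ^ P.p) := by ring
    rw [h7]
    exact (dvd_neg).2 this
  have h8 : P.b ^ P.p - 1 - P.a ^ P.p = P.b ^ P.p - (P.a ^ P.p + 1) := by ring
  rw [h8]
  exact dvd_sub h4 h6

theorem arith2 : Stmt2_arith := by
  intro P A hA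
  have hcast : ∀ n : ℤ, algebraMap ℚ K ((n : ℤ) : ℚ) = ((n : ℤ) : K) := fun n => by simp
  have h2lt : A.valuation (2 : K) < 1 := val_two_lt hA
  -- `a₂` is an integer
  obtain ⟨a₂', ha₂'⟩ := frey_four_dvd P
  have ha₂ : P.freyCurve.a₂ = ((a₂' : ℤ) : ℚ) := by
    simp only [FreyPackage.freyCurve]
    have : ((P.b : ℚ) ^ P.p - 1 - (P.a : ℚ) ^ P.p) = (((P.b ^ P.p - 1 - P.a ^ P.p : ℤ)) : ℚ) := by
      push_cast; ring
    rw [this, ha₂']
    push_cast
    field_simp
  -- decomposition of `b`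
  obtain ⟨v, b', hb', hb⟩ := int_two_pow_mul_odd P.hb0
  have hv : 1 ≤ v := by
    rcases Nat.eq_zero_or_pos v with h0 | h0
    · exfalso
      rw [h0, pow_zero, one_mul] at hb
      exact hb' (hb ▸ frey_two_dvd_b P)
    · exact h0
  have hp5 := P.hp5
  have hpv : 5 ≤ P.p * v := by nlinarith
  obtain ⟨m, hm⟩ : ∃ m : ℕ, P.p * v = m + 4 := ⟨P.p * v - 4, by omega⟩
  have ha₄ : P.freyCurve.a₄ = (((-(P.a ^ P.p) * (2 ^ m * b' ^ P.p) : ℤ)) : ℚ) := by
    simp only [FreyPackage.freyCurve]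
    have hbq : (P.b : ℚ) = 2 ^ v * (b' : ℚ) := by
      have := congrArg (fun z : ℤ => (z : ℚ)) hb
      simpa using this
    rw [hbq, mul_pow, ← pow_mul, mul_comm v P.p, hm, pow_add]
    push_cast
    field_simp
    ring
  have hvalb' : A.valuation ((b' ^ P.p : ℤ) : K) = 1 := by
    push_cast
    rw [map_pow, val_odd hA hb', one_pow]
  have hvala : A.valuation ((P.a ^ P.p : ℤ) : K) = 1 := by
    push_cast
    rw [map_pow, val_odd hA (frey_a_odd P), one_pow]
  have hvala₄ : A.valuation (algebraMap ℚ K P.freyCurve.a₄) = A.valuation (2 : K) ^ m := by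
    rw [ha₄, hcast]
    push_cast
    rw [neg_mul, Valuation.map_neg, map_mul, map_mul, map_pow, map_pow, map_pow,
      val_odd hA (frey_a_odd P), val_odd hA hb']
    simp
  have hm0 : 0 < m := by omega
  refine ⟨⟨?_, ?_, ?_, ?_, ?_, ?_, h2lt⟩, ?_, m, hm0, ?_, hvala₄⟩
  · simp [FreyPackage.freyCurve]
  · simp [FreyPackage.freyCurve]
  · simp [FreyPackage.freyCurve]
  · show A.valuation (algebraMap ℚ K P.freyCurve.a₂) ≤ 1
    rw [ha₂, hcast]
    exact valuation_intCast_le_one A _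
  · show A.valuation (algebraMap ℚ K P.freyCurve.a₄) < 1
    rw [hvala₄]
    exact pow_lt_one₀ zero_le h2lt hm0.ne'
  · show algebraMap ℚ K P.freyCurve.a₄ ≠ 0
    intro h0
    have := hvala₄
    rw [h0, map_zero] at this
    exact pow_ne_zero m (val_two_ne_zero A) this.symm
  · have h : ((2 : ℕ) : K) ∈ A.nonunits := hA
    exact valuation_natCast_eq_one_of_ne Nat.prime_two h P.pp (by omega)
  · rw [Nat.coprime_comm, P.pp.coprime_iff_not_dvd]
    intro hd
    rcases (P.pp.dvd_mul).1 hd with h | h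
    · have := Nat.le_of_dvd (by norm_num) h
      omega
    · have h1 : P.p ∣ m + 4 := ⟨v, hm.symm⟩
      have h2 : P.p ∣ 4 := (Nat.dvd_add_right h).1 h1
      have := Nat.le_of_dvd (by norm_num) h2
      omega

end Fermat.Agent.S13.WP3.H15
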