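/-
S13 / WP3 piece (2C), helper38: two affine points with unit `x`-coordinate and the same
reduction differ by an element of `E₁`.
-/
import Fermat.Agent.S13.WP3.Defs

set_option autoImplicit false

namespace Fermat.Agent.S13.WP3.H38

open WeierstrassCurve WeierstrassCurve.Affine

variable {L : Type*} [Field L]

lemma sr_equation_iff {W : Affine L} (h₁ : W.a₁ = 1) (h₃ : W.a₃ = 0) (h₆ : W.a₆ = 0)
    (x y : L) : W.Equation x y ↔ y ^ 2 + x * y = x ^ 3 + W.a₂ * x ^ 2 + W.a₄ * x := by
  rw [Affine.equation_iff, h₁, h₃, h₆]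
  constructor <;> intro h <;> linear_combination h

lemma sr_negY {W : Affine L} (h₁ : W.a₁ = 1) (h₃ : W.a₃ = 0) (x y : L) :
    W.negY x y = -y - x := by
  simp [Affine.negY, h₁, h₃]

/-- On the model, a point with `|x| = 1` has `|y| ≤ 1`. -/
lemma sr_y_le {A : ValuationSubring L} {W : Affine L} (hyp : ModelHyp2 A W) {x y : L}
    (he : W.Equation x y) (hx : A.valuation x = 1) : A.valuation y ≤ 1 := by
  by_contra hcon
  have hy : 1 < A.valuation y := not_le.1 hcon
  have e := (sr_equation_iff hyp.a₁ hyp.a₃ hyp.a₆ x y).1 he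
  -- left side has valuation `|y|²`
  have hxy : A.valuation (x * y) = A.valuation y := by rw [map_mul, hx, one_mul]
  have hy2 : A.valuation y < A.valuation (y ^ 2) := by
    rw [map_pow, pow_two]
    calc A.valuation y = 1 * A.valuation y := (one_mul _).symm
      _ < A.valuation y * A.valuation y := by
        have h0 : (0 : A.ValueGroup) < A.valuation y := lt_trans zero_lt_one hy
        exact mul_lt_mul_of_pos_right hy h0
  have hL : A.valuation (y ^ 2 + x * y) = A.valuation (y ^ 2) :=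
    Valuation.map_add_eq_of_lt_left _ (by rw [hxy]; exact hy2)
  have hL1 : 1 < A.valuation (y ^ 2 + x * y) := by
    rw [hL]; exact lt_trans hy hy2
  -- right side has valuation `≤ 1`
  have h3 : A.valuation (x ^ 3) ≤ 1 := by rw [map_pow, hx, one_pow]
  have h2 : A.valuation (W.a₂ * x ^ 2) ≤ 1 := by
    rw [map_mul, map_pow, hx, one_pow, mul_one]; exact hyp.a_le
  have h1 : A.valuation (W.a₄ * x) ≤ 1 := by
    rw [map_mul, hx, mul_one]; exact hyp.b_lt.le
  have hR : A.valuation (x ^ 3 + W.a₂ * x ^ 2 + W.a₄ * x) ≤ 1 :=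
    (Valuation.map_add_le _ ((Valuation.map_add_le _ h3 h2)) h1)
  rw [e] at hL1
  exact absurd hL1 (not_lt.2 hR)

variable [DecidableEq L]

/-- Piece (2C). -/
theorem sameRed : Stmt2_sameRed (L := L) := by
  intro A W hyp x y x' y' h h' hx hxx hyy
  -- `|x'| = 1`
  have hx' : A.valuation x' = 1 := by
    have : x' = x - (x - x') := by ring
    rw [this, Valuation.map_sub_eq_of_lt_left _ (by rw [hx]; exact hxx), hx]
  have hy' : A.valuation y' ≤ 1 := sr_y_le hyp h'.1 hx'
  have h2y' : A.valuation (2 * y') < 1 := by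
    rw [map_mul]
    calc A.valuation 2 * A.valuation y' ≤ A.valuation 2 * 1 := by
          exact mul_le_mul' le_rfl hy'
      _ = A.valuation 2 := mul_one _
      _ < 1 := hyp.two
  -- the numerator `y + y' + x'` has valuation `1`
  have hnum : A.valuation (y - W.negY x' y') = 1 := by
    rw [sr_negY hyp.a₁ hyp.a₃]
    have : y - (-y' - x') = x' + (2 * y' + (y - y')) := by ring
    rw [this, Valuation.map_add_eq_of_lt_left _ (by
      rw [hx']; exact Valuation.map_add_lt _ h2y' hyy), hx']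
  rw [sub_eq_add_neg, Point.neg_some]
  by_cases hxy : x = x' ∧ y = W.negY x' (W.negY x' y')
  · rw [Point.add_of_Y_eq hxy.1 hxy.2]
    trivial
  rw [Point.add_some hxy]
  show 1 < A.valuation (W.addX x x' (W.slope x x' y (W.negY x' y')))
  by_cases hxe : x = x'
  · -- then `y = negY x' y'`, impossible
    exfalso
    have hne : y ≠ W.negY x' (W.negY x' y') := fun hc => hxy ⟨hxe, hc⟩
    have hyeq := Y_eq_of_Y_ne h.1 ((equation_neg _ _).2 h'.1) hxe hne
    rw [hyeq, sr_negY hyp.a₁ hyp.a₃] at hyy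
    have : -y' - x' - y' = -(x' + 2 * y') := by ring
    rw [this, Valuation.map_neg, Valuation.map_add_eq_of_lt_left _ (by rw [hx']; exact h2y'),
      hx'] at hyy
    exact lt_irrefl _ hyy
  · have hd : x - x' ≠ 0 := sub_ne_zero.2 hxe
    have hd0 : A.valuation (x - x') ≠ 0 := (Valuation.ne_zero_iff _).2 hd
    have hdpos : (0 : A.ValueGroup) < A.valuation (x - x') := zero_lt_iff.2 hd0
    obtain ⟨ℓ, hℓ⟩ : ∃ ℓ, ℓ = W.slope x x' y (W.negY x' y') := ⟨_, rfl⟩
    rw [← hℓ]
    have hℓv : 1 < A.valuation ℓ := by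
      rw [hℓ, slope_of_X_ne hxe, map_div₀, hnum, one_div]
      exact (one_lt_inv₀ hdpos).2 hxx
    have hℓ0 : (0 : A.ValueGroup) < A.valuation ℓ := lt_trans zero_lt_one hℓv
    have hℓ2 : A.valuation ℓ < A.valuation (ℓ ^ 2) := by
      rw [map_pow, pow_two]
      calc A.valuation ℓ = 1 * A.valuation ℓ := (one_mul _).symm
        _ < A.valuation ℓ * A.valuation ℓ := mul_lt_mul_of_pos_right hℓv hℓ0
    have hrest : A.valuation (ℓ - W.a₂ - x - x') < A.valuation (ℓ ^ 2) := by
      have h1 : A.valuation (ℓ - W.a₂) = A.valuation ℓ :=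
        Valuation.map_sub_eq_of_lt_left _ (lt_of_le_of_lt hyp.a_le hℓv)
      have h2 : A.valuation (ℓ - W.a₂ - x) = A.valuation ℓ := by
        rw [Valuation.map_sub_eq_of_lt_left _ (by rw [h1, hx]; exact hℓv), h1]
      have h3 : A.valuation (ℓ - W.a₂ - x - x') = A.valuation ℓ := by
        rw [Valuation.map_sub_eq_of_lt_left _ (by rw [h2, hx']; exact hℓv), h2]
      rw [h3]; exact hℓ2
    have hX : W.addX x x' ℓ = ℓ ^ 2 + (ℓ - W.a₂ - x - x') := by
      simp only [addX, hyp.a₁]; ring
    rw [hX, Valuation.map_add_eq_of_lt_left _ hrest]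
    exact lt_trans hℓv hℓ2

end Fermat.Agent.S13.WP3.H38
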