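/-
S13 / WP3, piece 2D3: the sum of two points of the region `C(λ)`
(`|b| < |x| < 1`, `|y - λ x| < |x|`) on `y² + x y = x³ + a x² + b x`.
Independent of the definition of the component homomorphism; line data as a hypothesis.
Also piece 2D5 (annulus) and basic facts `|λ| ≤ 1`, `|2λ + 1| = 1`.
-/
import Mathlib
import Fermat.Agent.S13.WP3.Defs

set_option autoImplicit false

namespace Fermat.Agent.S13.WP3.H4

open WeierstrassCurve WeierstrassCurve.Affine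

section valuation

variable {L : Type*} [Field L] {Γ₀ : Type*} [LinearOrderedCommGroupWithZero Γ₀]
  (v : Valuation L Γ₀)

lemma val_eq_one_of_sq' {x : L} (h : v (x ^ 2) = 1) : v x = 1 := by
  rw [map_pow] at h
  exact (pow_eq_one_iff_of_nonneg zero_le two_ne_zero).1 h

/-- `|λ| ≤ 1` for a root of `λ² + λ = a`, `|a| ≤ 1`. -/
lemma val_lam_le_one {a lam : L} (ha : v a ≤ 1) (hlam : lam ^ 2 + lam = a) : v lam ≤ 1 := by
  by_contra hcon
  have hcon : 1 < v lam := not_le.1 hcon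
  have h1 : v lam < v (lam ^ 2) := by
    rw [map_pow, sq]
    calc v lam = v lam * 1 := (mul_one _).symm
      _ < v lam * v lam := mul_lt_mul_of_pos_left hcon (lt_trans zero_lt_one hcon)
  have h2 : v a = v (lam ^ 2) := by
    rw [← hlam]; exact v.map_add_eq_of_lt_left h1
  have h3 : 1 < v (lam ^ 2) := lt_trans hcon h1
  rw [← h2] at h3
  exact absurd ha (not_le.2 h3)

/-- `|2λ + 1| = 1` if `|2| < 1` and `|λ| ≤ 1`. -/
lemma val_two_lam_add_one {lam : L} (h2 : v (2 : L) < 1) (hl : v lam ≤ 1) :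
    v (2 * lam + 1) = 1 := by
  have h : v (2 * lam) < 1 := by
    rw [map_mul]
    calc v 2 * v lam ≤ v 2 * 1 := mul_le_mul_right hl _
      _ = v 2 := mul_one _
      _ < 1 := h2
  rw [add_comm]
  exact v.map_one_add_of_lt h

/-- The data shared by all cases: line through two points of `C(λ)`. -/
structure CData (a b lam x₁ y₁ x₂ y₂ x₃ y₃ ℓ μ : L) : Prop where
  hlam : lam ^ 2 + lam = a
  h2 : v (2 : L) < 1
  ha : v a ≤ 1
  hb : v b < 1
  e₁ : y₁ = ℓ * x₁ + μ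
  e₂ : y₂ = ℓ * x₂ + μ
  e₃ : -y₃ - x₃ = ℓ * x₃ + μ
  s₂ : x₁ * x₂ + x₁ * x₃ + x₂ * x₃ = b - (2 * ℓ + 1) * μ
  s₃ : x₁ * x₂ * x₃ = μ ^ 2
  hx₁b : v b < v x₁
  hx₁ : v x₁ < 1
  ht₁ : v (y₁ - lam * x₁) < v x₁
  hx₂b : v b < v x₂
  hx₂ : v x₂ < 1
  ht₂ : v (y₂ - lam * x₂) < v x₂

namespace CData

variable {v} {a b lam x₁ y₁ x₂ y₂ x₃ y₃ ℓ μ : L}
  (D : CData v a b lam x₁ y₁ x₂ y₂ x₃ y₃ ℓ μ)
include D

lemma vδ : v (2 * lam + 1) = 1 :=
  val_two_lam_add_one v D.h2 (val_lam_le_one v D.ha D.hlam)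

lemma x₁_pos : 0 < v x₁ := lt_of_le_of_lt zero_le D.hx₁b
lemma x₂_pos : 0 < v x₂ := lt_of_le_of_lt zero_le D.hx₂b
lemma X_pos : 0 < v (x₁ * x₂) := by rw [map_mul]; exact mul_pos D.x₁_pos D.x₂_pos

/-- `ε = x₂ δ₁ + x₁ δ₂` is small compared to `x₁ x₂`. -/
lemma vε : v (x₂ * (y₁ - lam * x₁) + x₁ * (y₂ - lam * x₂)) < v (x₁ * x₂) := by
  apply v.map_add_lt
  · rw [map_mul, map_mul, mul_comm (v x₁)]
    exact mul_lt_mul_of_pos_left D.ht₁ D.x₂_pos
  · rw [map_mul, map_mul]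
    exact mul_lt_mul_of_pos_left D.ht₂ D.x₁_pos

/-- `|x₂ y₁ + x₁ y₂ + x₁ x₂| = |x₁ x₂|`. -/
lemma vS : v (x₂ * y₁ + x₁ * y₂ + x₁ * x₂) = v (x₁ * x₂) := by
  have e : x₂ * y₁ + x₁ * y₂ + x₁ * x₂ =
      (2 * lam + 1) * (x₁ * x₂) + (x₂ * (y₁ - lam * x₁) + x₁ * (y₂ - lam * x₂)) := by
    ring
  have h1 : v ((2 * lam + 1) * (x₁ * x₂)) = v (x₁ * x₂) := by
    rw [map_mul, D.vδ, one_mul]
  rw [e, v.map_add_eq_of_lt_left (by rw [h1]; exact D.vε), h1]

/-- `μ (x₂ y₁ + x₁ y₂ + x₁ x₂) = x₁ x₂ (b - x₁ x₂)`. -/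
lemma μS : μ * (x₂ * y₁ + x₁ * y₂ + x₁ * x₂) = x₁ * x₂ * (b - x₁ * x₂) := by
  have e₁ := D.e₁; have e₂ := D.e₂; have s₂ := D.s₂; have s₃ := D.s₃
  subst e₁ e₂
  linear_combination (x₁ * x₂) * s₂ - (x₁ + x₂) * s₃

/-- `|μ| = |b - x₁ x₂|`. -/
lemma vμ : v μ = v (b - x₁ * x₂) := by
  have h : v (x₁ * x₂) * v μ = v (x₁ * x₂) * v (b - x₁ * x₂) := by
    rw [mul_comm, ← D.vS, ← map_mul, D.μS, map_mul, D.vS]
  exact mul_left_cancel₀ D.X_pos.ne' h

lemma vx₃_mul : v x₃ * v (x₁ * x₂) = v μ ^ 2 := by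
  have h := congrArg v D.s₃
  rw [map_mul, map_pow, mul_comm] at h
  exact h

/-- Case (i): `|b| < |x₁ x₂|`. -/
lemma case_i (h : v b < v (x₁ * x₂)) :
    v x₃ = v (x₁ * x₂) ∧ v (y₃ - lam * x₃) < v x₃ := by
  have hμ : v μ = v (x₁ * x₂) := by
    rw [D.vμ, v.map_sub_eq_of_lt_right h]
  have hx₃ : v x₃ = v (x₁ * x₂) := by
    have := D.vx₃_mul
    rw [hμ, sq] at this
    exact mul_right_cancel₀ D.X_pos.ne' this
  refine ⟨hx₃, ?_⟩
  have hx₃pos : 0 < v x₃ := by rw [hx₃]; exact D.X_pos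
  -- `X (δ μ + X) = X b - μ ε`
  have key : x₁ * x₂ * ((2 * lam + 1) * μ + x₁ * x₂) =
      x₁ * x₂ * b - μ * (x₂ * (y₁ - lam * x₁) + x₁ * (y₂ - lam * x₂)) := by
    linear_combination D.μS
  have h1 : v ((2 * lam + 1) * μ + x₁ * x₂) < v (x₁ * x₂) := by
    have : v (x₁ * x₂) * v ((2 * lam + 1) * μ + x₁ * x₂) < v (x₁ * x₂) * v (x₁ * x₂) := by
      rw [← map_mul, key]
      apply v.map_sub_lt
      · rw [map_mul]; exact mul_lt_mul_of_pos_left h D.X_pos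
      · rw [map_mul, hμ]; exact mul_lt_mul_of_pos_left D.vε D.X_pos
    exact lt_of_mul_lt_mul_left this zero_le
  -- `X (δ x₃ + μ) = μ (δ μ + X)`
  have key2 : x₁ * x₂ * ((2 * lam + 1) * x₃ + μ) = μ * ((2 * lam + 1) * μ + x₁ * x₂) := by
    linear_combination (2 * lam + 1) * D.s₃
  have h2 : v ((2 * lam + 1) * x₃ + μ) < v x₃ := by
    have : v (x₁ * x₂) * v ((2 * lam + 1) * x₃ + μ) < v (x₁ * x₂) * v x₃ := by
      rw [← map_mul, key2, map_mul, hμ, hx₃]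
      exact mul_lt_mul_of_pos_left h1 D.X_pos
    exact lt_of_mul_lt_mul_left this zero_le
  -- `x₁ (y₃ - λ x₃) = -x₁(δ x₃ + μ) + μ x₃ - δ₁ x₃`
  have key3 : x₁ * (y₃ - lam * x₃) =
      -(x₁ * ((2 * lam + 1) * x₃ + μ)) + μ * x₃ - (y₁ - lam * x₁) * x₃ := by
    have e₁ := D.e₁; have e₃ := D.e₃
    linear_combination (x₃) * e₁ - x₁ * e₃
  have : v x₁ * v (y₃ - lam * x₃) < v x₁ * v x₃ := by
    rw [← map_mul, key3]
    apply v.map_sub_lt
    · apply v.map_add_lt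
      · rw [Valuation.map_neg, map_mul]; exact mul_lt_mul_of_pos_left h2 D.x₁_pos
      · rw [map_mul, hμ, map_mul]
        calc v x₁ * v x₂ * v x₃ < v x₁ * 1 * v x₃ := by
              apply mul_lt_mul_of_pos_right _ hx₃pos
              exact mul_lt_mul_of_pos_left D.hx₂ D.x₁_pos
          _ = v x₁ * v x₃ := by rw [mul_one]
    · rw [map_mul]; exact mul_lt_mul_of_pos_right D.ht₁ hx₃pos
  exact lt_of_mul_lt_mul_left this zero_le

/-- Case (ii): `|x₁ x₂| < |b|`. -/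
lemma case_ii (h : v (x₁ * x₂) < v b) :
    v x₃ * v (x₁ * x₂) = v b ^ 2 ∧ v (y₃ - (-1 - lam) * x₃) < v x₃ := by
  have hμ : v μ = v b := by
    rw [D.vμ, v.map_sub_eq_of_lt_left h]
  have hx₃ : v x₃ * v (x₁ * x₂) = v b ^ 2 := by
    rw [D.vx₃_mul, hμ]
  refine ⟨hx₃, ?_⟩
  have hbpos : 0 < v b := lt_of_le_of_lt zero_le h
  have hbx₃ : v b < v x₃ := by
    have : v b * v (x₁ * x₂) < v x₃ * v (x₁ * x₂) := by
      rw [hx₃, sq]; exact mul_lt_mul_of_pos_left h hbpos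
    exact lt_of_mul_lt_mul_right this zero_le
  have hx₃pos : 0 < v x₃ := lt_trans hbpos hbx₃
  have key3 : x₁ * (y₃ - (-1 - lam) * x₃) = μ * x₃ - (y₁ - lam * x₁) * x₃ - μ * x₁ := by
    have e₁ := D.e₁; have e₃ := D.e₃
    linear_combination (x₃) * e₁ - x₁ * e₃
  have : v x₁ * v (y₃ - (-1 - lam) * x₃) < v x₁ * v x₃ := by
    rw [← map_mul, key3]
    apply v.map_sub_lt
    · apply v.map_sub_lt
      · rw [map_mul, hμ]; exact mul_lt_mul_of_pos_right D.hx₁b hx₃pos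
      · rw [map_mul]; exact mul_lt_mul_of_pos_right D.ht₁ hx₃pos
    · rw [map_mul, hμ, mul_comm]; exact mul_lt_mul_of_pos_left hbx₃ D.x₁_pos
  exact lt_of_mul_lt_mul_left this zero_le

/-- Case (iii): `|x₁ x₂| = |b|`. -/
lemma case_iii (h : v (x₁ * x₂) = v b) : v x₃ ≤ v b := by
  have hμ : v μ ≤ v b := by
    rw [D.vμ]; exact v.map_sub_le le_rfl h.le
  have hbpos : 0 < v b := by rw [← h]; exact D.X_pos
  have : v x₃ * v b ≤ v b * v b := by
    rw [← h, D.vx₃_mul, h, sq]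
    exact mul_le_mul' hμ hμ
  exact le_of_mul_le_mul_right this hbpos

end CData

end valuation

section points

variable {L : Type*} [Field L] [DecidableEq L]

/-- Piece 2D3: the sum of two points `P₁, P₂` of `C(λ)` is nonzero, and lies in `C(λ)` with
`|x₃| = |x₁x₂|` if `|b| < |x₁x₂|`, in `C(-1-λ)` with `|x₃| |x₁x₂| = |b|²` if `|x₁x₂| < |b|`,
and in `{|x| ≤ |b|}` if `|x₁x₂| = |b|`. -/
theorem c_add_c (hline : Stmt2_line (L := L))
    (A : ValuationSubring L) (W : Affine L) (hyp : ModelHyp2 A W)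
    (lam : L) (hlam : lam ^ 2 + lam = W.a₂)
    {x₁ y₁ x₂ y₂ : L} (h₁ : W.Nonsingular x₁ y₁) (h₂ : W.Nonsingular x₂ y₂)
    (hx₁b : A.valuation W.a₄ < A.valuation x₁) (hx₁ : A.valuation x₁ < 1)
    (ht₁ : A.valuation (y₁ - lam * x₁) < A.valuation x₁)
    (hx₂b : A.valuation W.a₄ < A.valuation x₂) (hx₂ : A.valuation x₂ < 1)
    (ht₂ : A.valuation (y₂ - lam * x₂) < A.valuation x₂) :
    Point.some x₁ y₁ h₁ + Point.some x₂ y₂ h₂ ≠ 0 ∧
    ∀ (x₃ y₃ : L) (h₃ : W.Nonsingular x₃ y₃),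
      Point.some x₁ y₁ h₁ + Point.some x₂ y₂ h₂ = Point.some x₃ y₃ h₃ →
      (A.valuation W.a₄ < A.valuation (x₁ * x₂) →
        A.valuation x₃ = A.valuation (x₁ * x₂) ∧
          A.valuation (y₃ - lam * x₃) < A.valuation x₃) ∧
      (A.valuation (x₁ * x₂) < A.valuation W.a₄ →
        A.valuation x₃ * A.valuation (x₁ * x₂) = A.valuation W.a₄ ^ 2 ∧
          A.valuation (y₃ - (-1 - lam) * x₃) < A.valuation x₃) ∧
      (A.valuation (x₁ * x₂) = A.valuation W.a₄ → A.valuation x₃ ≤ A.valuation W.a₄) := by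
  constructor
  · intro h0
    have hneg : Point.some x₁ y₁ h₁ = -Point.some x₂ y₂ h₂ := eq_neg_of_add_eq_zero_left h0
    rw [Point.neg_some] at hneg
    have hx : x₁ = x₂ := by injection hneg
    have hy : y₁ = W.negY x₂ y₂ := by injection hneg
    have hy' : y₁ = -y₂ - x₂ := by
      rw [hy, Affine.negY, hyp.a₁, hyp.a₃]; ring
    have hvδ : A.valuation (2 * lam + 1) = 1 :=
      val_two_lam_add_one _ hyp.two (val_lam_le_one _ hyp.a_le hlam)
    rw [hy', hx] at ht₁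
    have e : (2 * lam + 1) * x₂ = -((-y₂ - x₂ - lam * x₂) + (y₂ - lam * x₂)) := by ring
    have : A.valuation ((2 * lam + 1) * x₂) < A.valuation x₂ := by
      rw [e, Valuation.map_neg]; exact (A.valuation).map_add_lt ht₁ ht₂
    rw [map_mul, hvδ, one_mul] at this
    exact lt_irrefl _ this
  · intro x₃ y₃ h₃ hadd
    obtain ⟨ℓ, μ, e₁, e₂, e₃, -, s₂, s₃⟩ :=
      hline W hyp.a₁ hyp.a₃ hyp.a₆ x₁ y₁ x₂ y₂ x₃ y₃ h₁ h₂ h₃ hadd
    have D : CData (A.valuation) W.a₂ W.a₄ lam x₁ y₁ x₂ y₂ x₃ y₃ ℓ μ :=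
      ⟨hlam, hyp.two, hyp.a_le, hyp.b_lt, e₁, e₂, e₃, s₂, s₃, hx₁b, hx₁, ht₁, hx₂b, hx₂, ht₂⟩
    exact ⟨D.case_i, D.case_ii, D.case_iii⟩

omit [DecidableEq L] in
/-- Piece 2D5: every affine point with `|b| < |x| < 1` lies in `C(λ)` or in `C(-1-λ)`. -/
theorem annulus : Stmt2_annulus (L := L) := by
  intro A W hyp lam hlam x y h hbx hx1
  have hxpos : 0 < A.valuation x := lt_of_le_of_lt zero_le hbx
  have hx0 : x ≠ 0 := fun h0 => by rw [h0, map_zero] at hxpos; exact lt_irrefl _ hxpos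
  have heq := (W.equation_iff x y).1 h.1
  rw [hyp.a₁, hyp.a₃, hyp.a₆] at heq
  -- `(y - λ x)(y - λ' x) = x³ + b x`
  have key : (y - lam * x) * (y - (-1 - lam) * x) = x ^ 3 + W.a₄ * x := by
    linear_combination heq - x ^ 2 * hlam
  have hsmall : A.valuation (x ^ 3 + W.a₄ * x) < A.valuation x * A.valuation x := by
    apply (A.valuation).map_add_lt
    · rw [map_pow, pow_succ, sq]
      calc A.valuation x * A.valuation x * A.valuation x
          < A.valuation x * A.valuation x * 1 :=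
            mul_lt_mul_of_pos_left hx1 (mul_pos hxpos hxpos)
        _ = A.valuation x * A.valuation x := mul_one _
    · rw [map_mul]
      exact mul_lt_mul_of_pos_right hbx hxpos
  rw [← key, map_mul] at hsmall
  by_contra hcon
  rw [not_or, not_lt, not_lt] at hcon
  exact absurd hsmall (not_lt.2 (mul_le_mul' hcon.1 hcon.2))

/-- Piece 2D4: translation by `T = (0,0)`: `(x,y) + T = (b/x, -(y + x) b / x²)` for `x ≠ 0`. -/
theorem add_T (W : Affine L) (ha₁ : W.a₁ = 1) (ha₃ : W.a₃ = 0) (ha₆ : W.a₆ = 0)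
    (hT : W.Nonsingular 0 0) (x y : L) (h : W.Nonsingular x y) (hx : x ≠ 0) :
    ∃ h' : W.Nonsingular (W.a₄ / x) (-((y + x) * W.a₄ / x ^ 2)),
      Point.some x y h + Point.some 0 0 hT = Point.some _ _ h' := by
  have heq := (W.equation_iff x y).1 h.1
  rw [ha₁, ha₃, ha₆] at heq
  have hadd := Point.add_of_X_ne (W := W) (h₁ := h) (h₂ := hT) hx
  have hℓ : W.slope x 0 y 0 = y / x := by
    rw [slope_of_X_ne hx]; simp
  have hx₃ : W.addX x 0 (W.slope x 0 y 0) = W.a₄ / x := by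
    rw [hℓ]
    simp only [addX, ha₁]
    field_simp
    linear_combination heq
  have hy₃ : W.addY x 0 y (W.slope x 0 y 0) = -((y + x) * W.a₄ / x ^ 2) := by
    simp only [addY, negAddY, negY, ha₁, ha₃]
    rw [hx₃, hℓ]
    field_simp
    ring
  have hns := nonsingular_add h hT fun hxy => hx hxy.left
  rw [hx₃, hy₃] at hns
  refine ⟨hns, ?_⟩
  rw [hadd]
  congr 1

/-- `T = (0,0)` is a nonsingular point of the model (`b ≠ 0`). -/
lemma nonsingular_T (W : Affine L) (ha₃ : W.a₃ = 0) (ha₆ : W.a₆ = 0) (hb : W.a₄ ≠ 0) :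
    W.Nonsingular 0 0 := by
  rw [W.nonsingular_iff, W.equation_iff]
  refine ⟨by simp [ha₆], Or.inl ?_⟩
  simpa [ha₃] using Ne.symm hb

end points

end Fermat.Agent.S13.WP3.H4
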