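/-
S13 / WP3, piece (2D) (component homomorphism at `2`): EXACT statements of the case lemmas.
Conventions as in `WP3/Defs.lean`: model `y² + x y = x³ + a x² + b x`, `λ² + λ = a`,
`C(λ)` : `|b| < |x| < 1`, `|y - λ x| < |x|`;  `C(-1-λ) = -C(λ) = T + C(λ)`.
-/
import Fermat.Agent.S13.WP3.Defs

set_option autoImplicit false

namespace Fermat.Agent.S13.WP3

open WeierstrassCurve WeierstrassCurve.Affine

variable {L : Type*} [Field L] [DecidableEq L]

/-- (2D2) `E₀ + C(λ) ⊆ C(λ)`, preserving `|x|`. -/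
def Stmt2_E0C : Prop :=
  ∀ (A : ValuationSubring L) (W : Affine L), ModelHyp2 A W →
  ∀ lam : L, lam ^ 2 + lam = W.a₂ →
  ∀ P Q : W.Point, InE0 A P → InC A lam Q →
    InC A lam (P + Q) ∧ xVal A (P + Q) = xVal A Q

/-- (2D3) `C(λ) + C(λ)`, three cases according to `|x₁x₂|` versus `|b|`. -/
def Stmt2_CC : Prop :=
  ∀ (A : ValuationSubring L) (W : Affine L), ModelHyp2 A W →
  ∀ lam : L, lam ^ 2 + lam = W.a₂ →
  ∀ P Q : W.Point, InC A lam P → InC A lam Q →
    (A.valuation W.a₄ < xVal A P * xVal A Q →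
      InC A lam (P + Q) ∧ xVal A (P + Q) = xVal A P * xVal A Q) ∧
    (xVal A P * xVal A Q < A.valuation W.a₄ →
      InC A (-1 - lam) (P + Q) ∧
        xVal A (P + Q) * (xVal A P * xVal A Q) = A.valuation W.a₄ ^ 2) ∧
    (xVal A P * xVal A Q = A.valuation W.a₄ → InET A (P + Q))

/-- (2D4) translation by `T = (0,0)`: `(x,y) + T = (b/x, -b (y + x)/x²)` for `x ≠ 0`. -/
def Stmt2_addT : Prop :=
  ∀ (W : Affine L), W.a₁ = 1 → W.a₃ = 0 → W.a₆ = 0 →
  ∀ (hT : W.Nonsingular 0 0) (x y : L) (h : W.Nonsingular x y), x ≠ 0 →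
    ∃ h' : W.Nonsingular (W.a₄ / x) (-(W.a₄ * (y + x) / x ^ 2)),
      Point.some x y h + Point.some 0 0 hT = Point.some _ _ h'

end Fermat.Agent.S13.WP3
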