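/-
S13 / WP3: pieces (2D3) `Stmt2_CC` and (2D4) `Stmt2_addT` in the exact form of `WP3/M1Defs.lean`.
-/
import Mathlib
import Fermat.Agent.S13.WP3.Defs
import Fermat.Agent.S13.WP3.M1Defs
import Fermat.Agent.S13.WP3.H5_Line
import Fermat.Agent.S13.WP3.H4_CC

set_option autoImplicit false

namespace Fermat.Agent.S13.WP3.H4

open WeierstrassCurve WeierstrassCurve.Affine

variable {L : Type*} [Field L] [DecidableEq L]

/-- (2D3) `C(λ) + C(λ)`. -/
theorem cc : Stmt2_CC (L := L) := by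
  intro A W hyp lam hlam P Q hP hQ
  rcases P with _ | ⟨x₁, y₁, h₁⟩
  · exact absurd hP (by simp [InC])
  rcases Q with _ | ⟨x₂, y₂, h₂⟩
  · exact absurd hQ (by simp [InC])
  obtain ⟨hx₁b, hx₁, ht₁⟩ := hP
  obtain ⟨hx₂b, hx₂, ht₂⟩ := hQ
  obtain ⟨hne, hmain⟩ := c_add_c H5.line2 A W hyp lam hlam h₁ h₂ hx₁b hx₁ ht₁ hx₂b hx₂ ht₂
  have hx₁pos : 0 < A.valuation x₁ := lt_of_le_of_lt zero_le hx₁b
  have hx₂pos : 0 < A.valuation x₂ := lt_of_le_of_lt zero_le hx₂b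
  have hbpos : 0 < A.valuation W.a₄ := by
    rw [zero_lt_iff]; exact (Valuation.ne_zero_iff _).2 hyp.b_ne
  have hXlt : A.valuation x₁ * A.valuation x₂ < 1 := by
    calc A.valuation x₁ * A.valuation x₂ < A.valuation x₁ * 1 :=
          mul_lt_mul_of_pos_left hx₂ hx₁pos
      _ = A.valuation x₁ := mul_one _
      _ < 1 := hx₁
  have hXgt : A.valuation W.a₄ ^ 2 < A.valuation x₁ * A.valuation x₂ := by
    rw [sq]
    exact mul_lt_mul'' hx₁b hx₂b zero_le zero_le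
  generalize hS : Point.some x₁ y₁ h₁ + Point.some x₂ y₂ h₂ = S at hne ⊢
  rcases S with _ | ⟨x₃, y₃, h₃⟩
  · exact absurd rfl hne
  obtain ⟨c1, c2, c3⟩ := hmain x₃ y₃ h₃ hS
  simp only [xVal, InC, InET]
  rw [map_mul] at c1 c2 c3
  refine ⟨fun h => ?_, fun h => ?_, fun h => c3 h⟩
  · obtain ⟨e, t⟩ := c1 h
    exact ⟨⟨by rw [e]; exact h, by rw [e]; exact hXlt, t⟩, e⟩
  · obtain ⟨e, t⟩ := c2 h
    refine ⟨⟨?_, ?_, t⟩, e⟩
    · have : A.valuation W.a₄ * (A.valuation x₁ * A.valuation x₂) <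
          A.valuation x₃ * (A.valuation x₁ * A.valuation x₂) := by
        rw [e, sq]; exact mul_lt_mul_of_pos_left h hbpos
      exact lt_of_mul_lt_mul_right this zero_le
    · have : A.valuation x₃ * (A.valuation x₁ * A.valuation x₂) <
          1 * (A.valuation x₁ * A.valuation x₂) := by
        rw [e, one_mul]; exact hXgt
      exact lt_of_mul_lt_mul_right this zero_le

/-- (2D4) translation by `T = (0,0)`. -/
theorem addT : Stmt2_addT (L := L) := by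
  intro W ha₁ ha₃ ha₆ hT x y h hx
  obtain ⟨h', e⟩ := add_T W ha₁ ha₃ ha₆ hT x y h hx
  have hy : -((y + x) * W.a₄ / x ^ 2) = -(W.a₄ * (y + x) / x ^ 2) := by ring
  have h'' : W.Nonsingular (W.a₄ / x) (-(W.a₄ * (y + x) / x ^ 2)) := hy ▸ h'
  refine ⟨h'', ?_⟩
  rw [e]
  congr 1

end Fermat.Agent.S13.WP3.H4
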