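/-
S13 / WP3 piece (2F), helper5: the core of (I4) on the model `y² + x y = x³ + a x² + b x` at a place
of residue characteristic 2, from the pieces (2B) `E₁`-closure and F1, (2C) same reduction,
(2D) component homomorphism and (2D') annulus dichotomy.
-/
import Fermat.Agent.S13.WP3.H5_Line

set_option autoImplicit false

namespace Fermat.Agent.S13.WP3.H5

open WeierstrassCurve WeierstrassCurve.Affine WeierstrassCurve.Affine.Point

section aux

variable {L : Type*} [Field L]

/-- On the model, a point with `|x| ≤ 1` has `|y| ≤ 1`. -/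
lemma val_y_le_one {A : ValuationSubring L} {W : Affine L} (hyp : ModelHyp2 A W) {x y : L}
    (h : W.Nonsingular x y) (hx : A.valuation x ≤ 1) : A.valuation y ≤ 1 := by
  by_contra hy
  push Not at hy
  have e := (frey_equation_iff hyp.a₁ hyp.a₃ hyp.a₆ x y).1 h.1
  have hy0 : A.valuation y ≠ 0 := fun h0 => by rw [h0] at hy; exact not_lt_zero hy
  have h1 : A.valuation (x * y) < A.valuation (y ^ 2) := by
    rw [map_mul, map_pow, pow_two]
    exact mul_lt_mul_of_pos_right (lt_of_le_of_lt hx hy) (zero_lt_iff.2 hy0)
  have h2 : A.valuation (y ^ 2 + x * y) = A.valuation (y ^ 2) :=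
    Valuation.map_add_eq_of_lt_left _ h1
  have h3 : A.valuation (x ^ 3 + W.a₂ * x ^ 2 + W.a₄ * x) ≤ 1 := by
    refine Valuation.map_add_le _ (Valuation.map_add_le _ ?_ ?_) ?_
    · rw [map_pow]; exact pow_le_one₀ zero_le hx
    · rw [map_mul, map_pow]
      exact mul_le_one' hyp.a_le (pow_le_one₀ zero_le hx)
    · rw [map_mul]
      exact mul_le_one' hyp.b_lt.le hx
  rw [← e, h2, map_pow] at h3
  have : 1 < A.valuation y ^ 2 := one_lt_pow₀ hy two_ne_zero
  exact absurd h3 (not_le.2 this)

/-- A root of `λ² + λ = a` with `|a| ≤ 1` is integral. -/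
lemma val_lam_le_one {A : ValuationSubring L} {a lam : L} (ha : A.valuation a ≤ 1)
    (hlam : lam ^ 2 + lam = a) : A.valuation lam ≤ 1 := by
  by_contra h
  push Not at h
  have h0 : A.valuation lam ≠ 0 := fun h0 => by rw [h0] at h; exact not_lt_zero h
  have h1 : A.valuation lam < A.valuation (lam ^ 2) := by
    rw [map_pow, pow_two]
    calc A.valuation lam = 1 * A.valuation lam := (one_mul _).symm
      _ < A.valuation lam * A.valuation lam := mul_lt_mul_of_pos_right h (zero_lt_iff.2 h0)
  have h2 : A.valuation (lam ^ 2 + lam) = A.valuation (lam ^ 2) :=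
    Valuation.map_add_eq_of_lt_left _ h1
  rw [hlam, map_pow] at h2
  have : 1 < A.valuation lam ^ 2 := one_lt_pow₀ h two_ne_zero
  rw [← h2] at this
  exact absurd ha (not_le.2 this)

/-- An automorphism acting trivially on the residue field (of residue characteristic 2) fixes
the roots of `λ² + λ = a` when it fixes `a`. -/
lemma sigma_lam {A : ValuationSubring L} {a lam : L} (ha : A.valuation a ≤ 1)
    (h2 : A.valuation (2 : L) < 1) (hlam : lam ^ 2 + lam = a) (σ : L →+* L) (hσa : σ a = a)
    (hσr : ∀ x, A.valuation x ≤ 1 → A.valuation (σ x - x) < 1) : σ lam = lam := by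
  have hl := val_lam_le_one ha hlam
  have e : (σ lam - lam) * (σ lam + lam + 1) = 0 := by
    have : σ lam ^ 2 + σ lam = a := by rw [← map_pow, ← map_add, hlam, hσa]
    linear_combination this - hlam
  rcases mul_eq_zero.1 e with h | h
  · exact sub_eq_zero.1 h
  · exfalso
    have h3 := hσr lam hl
    have e2 : σ lam - lam = -(1 + 2 * lam) := by linear_combination h
    rw [e2, Valuation.map_neg] at h3
    have h4 : A.valuation (2 * lam) < 1 := by
      rw [map_mul]
      calc A.valuation 2 * A.valuation lam ≤ A.valuation 2 * 1 := by gcongr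
        _ = A.valuation 2 := mul_one _
        _ < 1 := h2
    rw [Valuation.map_one_add_of_lt _ h4] at h3
    exact lt_irrefl _ h3

end aux

section main

variable {K₀ L : Type} [Field K₀] [Field L] [DecidableEq L] [Algebra K₀ L] [IsAlgClosed L]

/-- Piece (2F), from the other pieces. -/
theorem coreI4_of (hM1 : Stmt2_M1 (L := L)) (hann : Stmt2_annulus (L := L))
    (hsame : Stmt2_sameRed (L := L)) (hE1a : Stmt2_E1_add (L := L))
    (hE1n : Stmt2_E1_neg (L := L)) (hF1 : Stmt2_F1 (L := L))
    (A : ValuationSubring L) (W' : Affine K₀) (hyp : ModelHyp2 A (W'⁄L))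
    (n : ℕ) (hn : A.valuation (n : L) = 1)
    (σ : L ≃ₐ[K₀] L) (hσv : ∀ x, A.valuation (σ x) = A.valuation x)
    (hσr : ∀ x, A.valuation x ≤ 1 → A.valuation (σ x - x) < 1)
    (P : (W'⁄L).Point) (hP : (n : ℤ) • P = 0) :
    InE0 A (σ • P - P) ∧ (InE0 A P → σ • P = P) := by
  have hP' : n • P = 0 := by rwa [natCast_zsmul] at hP
  constructor
  · -- component of `σ P` equals the component of `P`
    obtain ⟨lam, hlam⟩ : ∃ lam : L, lam ^ 2 + lam = (W'⁄L).a₂ := by
      obtain ⟨z, hz⟩ := IsAlgClosed.exists_root
        (Polynomial.X ^ 2 + Polynomial.X - Polynomial.C ((W'⁄L).a₂) : Polynomial L) (by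
          have : (Polynomial.X ^ 2 + Polynomial.X - Polynomial.C ((W'⁄L).a₂) :
              Polynomial L).degree = 2 := by
            compute_degree!
          rw [this]; norm_num)
      refine ⟨z, ?_⟩
      simp only [Polynomial.IsRoot.def, Polynomial.eval_sub, Polynomial.eval_add,
        Polynomial.eval_pow, Polynomial.eval_X, Polynomial.eval_C] at hz
      linear_combination hz
    have hσa : (σ : L →+* L) (W'⁄L).a₂ = (W'⁄L).a₂ := σ.commutes _
    have hσlam : σ lam = lam := sigma_lam hyp.a_le hyp.two hlam (σ : L →+* L) hσa hσr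
    obtain ⟨φ, hker, hC, hT⟩ := hM1 A (W'⁄L) hyp lam hlam
    have key : φ (σ • P) = φ P := by
      rcases P with _ | ⟨x, y, h⟩
      · rfl
      · obtain ⟨hσ, hσP⟩ : ∃ hσ : (W'⁄L).Nonsingular (σ x) (σ y),
            σ • (Point.some x y h : (W'⁄L).Point) = Point.some (σ x) (σ y) hσ := ⟨_, rfl⟩
        by_cases hx1 : 1 ≤ A.valuation x
        · have h1 : φ (Point.some x y h) = 0 := (hker _).2 hx1
          have h2 : φ (σ • (Point.some x y h : (W'⁄L).Point)) = 0 := by
            rw [hσP]
            exact (hker _).2 (show 1 ≤ A.valuation (σ x) by rw [hσv]; exact hx1)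
          rw [h1, h2]
        push Not at hx1
        by_cases hxb : A.valuation x ≤ A.valuation (W'⁄L).a₄
        · rw [hσP, hT _ _ h hxb, hT _ _ _ (by rw [hσv]; exact hxb)]
        push Not at hxb
        have hx0 : x ≠ 0 := by
          rintro rfl
          rw [_root_.map_zero] at hxb
          exact not_lt_zero hxb
        have hσx0 : σ x ≠ 0 := by simpa using hx0
        have hvu : valUnit A (σ x) hσx0 = valUnit A x hx0 := by
          apply Units.ext
          simp [valUnit, hσv]
        rcases hann A (W'⁄L) hyp lam hlam x y h hxb hx1 with hb | hb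
        · rw [hσP, hC _ _ h hx0 hxb hx1 hb, hC _ _ _ hσx0 (by rw [hσv]; exact hxb)
            (by rw [hσv]; exact hx1) (by
              have : σ y - lam * σ x = σ (y - lam * x) := by
                rw [map_sub, map_mul, hσlam]
              rw [this, hσv, hσv]; exact hb), hvu]
        · -- pass to `-P`
          have hneg : -(Point.some x y h : (W'⁄L).Point) =
              Point.some x ((W'⁄L).negY x y) ((nonsingular_neg ..).mpr h) := Point.neg_some h
          have hb' : A.valuation ((W'⁄L).negY x y - lam * x) < A.valuation x := by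
            have : (W'⁄L).negY x y - lam * x = -(y - (-1 - lam) * x) := by
              rw [frey_negY hyp.a₁ hyp.a₃]; ring
            rw [this, Valuation.map_neg]; exact hb
          have h1 : φ (-(Point.some x y h : (W'⁄L).Point)) =
              Additive.ofMul (QuotientGroup.mk (valUnit A x hx0)) := by
            rw [hneg]; exact hC _ _ _ hx0 hxb hx1 hb'
          have h2 : φ (-(σ • (Point.some x y h : (W'⁄L).Point))) =
              Additive.ofMul (QuotientGroup.mk (valUnit A x hx0)) := by
            rw [← smul_neg, hneg]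
            obtain ⟨hσ', this⟩ : ∃ hσ' : (W'⁄L).Nonsingular (σ x) (σ ((W'⁄L).negY x y)),
                σ • (Point.some x ((W'⁄L).negY x y) ((nonsingular_neg ..).mpr h) :
                (W'⁄L).Point) = Point.some (σ x) (σ ((W'⁄L).negY x y)) hσ' := ⟨_, rfl⟩
            rw [this, hC _ _ _ hσx0 (by rw [hσv]; exact hxb) (by rw [hσv]; exact hx1) (by
              have : σ ((W'⁄L).negY x y) - lam * σ x = σ ((W'⁄L).negY x y - lam * x) := by
                rw [map_sub, map_mul, hσlam]
              rw [this, hσv, hσv]; exact hb'), hvu]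
          rw [map_neg] at h1 h2
          exact neg_injective (h2.trans h1.symm)
    rw [← hker, map_sub, key, sub_self]
  · intro hE0
    -- `σ P - P ∈ E₁`
    have hR : InE1 A (σ • P - P) := by
      rcases P with _ | ⟨x, y, h⟩
      · show InE1 A (σ • (0 : (W'⁄L).Point) - 0)
        rw [smul_zero, sub_zero]; trivial
      · obtain ⟨hσ, hσP⟩ : ∃ hσ : (W'⁄L).Nonsingular (σ x) (σ y),
            σ • (Point.some x y h : (W'⁄L).Point) = Point.some (σ x) (σ y) hσ := ⟨_, rfl⟩
        have hx1 : 1 ≤ A.valuation x := hE0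
        rcases lt_or_eq_of_le hx1 with hx | hx
        · rw [sub_eq_add_neg]
          refine hE1a A (W'⁄L) hyp _ _ ?_ (hE1n A (W'⁄L) hyp _ hx)
          rw [hσP]
          show 1 < A.valuation (σ x)
          rw [hσv]; exact hx
        · rw [hσP]
          refine hsame A (W'⁄L) hyp _ _ _ _ _ h (by rw [hσv]; exact hx.symm)
            (hσr x hx.symm.le) (hσr y (val_y_le_one hyp h hx.symm.le))
    by_contra hne
    have hne' : σ • P - P ≠ 0 := fun h => hne (sub_eq_zero.1 h)
    apply hF1 A (W'⁄L) hyp _ hR hne' n hn
    rw [smul_sub, ← smul_comm σ n P, hP', smul_zero, sub_zero]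

end main

end Fermat.Agent.S13.WP3.H5
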