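/-
S13 / WP3: (I4) `Stmt_two_unipotent` from the core statement `Stmt2_coreI4`, the arithmetic of
the Frey curve at `2` and the unpacking of inertia (helper14).
-/
import Fermat.Agent.S13.WP3.M1Defs
import Fermat.Agent.S05.Defs

set_option autoImplicit false

namespace Fermat.Agent.S13.WP3

open WeierstrassCurve WeierstrassCurve.Affine WeierstrassCurve.Affine.Point

/-- `E₀` is stable under negation (same `x`-coordinate). -/
lemma inE0_neg {L : Type*} [Field L] [DecidableEq L] (A : ValuationSubring L) {W : Affine L}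
    (P : W.Point) (h : InE0 A P) : InE0 A (-P) := by
  rcases P with _ | ⟨x, y, hns⟩
  · exact h
  · exact h

/-- The additive subgroup `E[p] ∩ E₀` of `E[p]`. -/
noncomputable def e0AddSubgroup (P : FreyPackage) (A : ValuationSubring Qbar)
    (hE0 : Stmt2_E0_add (L := Qbar)) (hyp : ModelHyp2 A (P.freyCurve⁄Qbar)) :
    AddSubgroup (Vp P) where
  carrier := {x | InE0 A (x : (P.freyCurve⁄Qbar).Point)}
  zero_mem' := trivial
  add_mem' := fun ha hb => hE0 A _ hyp _ _ ha hb
  neg_mem' := fun ha => inE0_neg A _ ha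

/-- (I4) from the core statement. -/
theorem two_unipotent_of (hcore : Stmt2_coreI4) (har : Stmt2_arith)
    (hin : Fermat.Agent.S05.Stmt_inertia) (hE0 : Stmt2_E0_add (L := Qbar)) :
    Fermat.Agent.S13.Stmt_two_unipotent := by
  intro P A hA
  obtain ⟨hyp, hp1, -⟩ := har P A hA
  refine ⟨AddSubgroup.toZModSubmodule P.p (e0AddSubgroup P A hE0 hyp), ?_, ?_⟩
  · intro σ hσ x hx
    obtain ⟨hval, hres⟩ := hin A σ hσ
    have hx0 : InE0 A (x : (P.freyCurve⁄Qbar).Point) := hx
    have hxt : (P.p : ℤ) • (x : (P.freyCurve⁄Qbar).Point) = 0 := by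
      have := x.2
      rwa [Submodule.mem_torsionBy_iff] at this
    exact Subtype.ext ((hcore ℚ Qbar A P.freyCurve hyp P.p hp1 σ hval hres x.1 hxt).2 hx0)
  · intro σ hσ x
    obtain ⟨hval, hres⟩ := hin A σ hσ
    have hxt : (P.p : ℤ) • (x : (P.freyCurve⁄Qbar).Point) = 0 := by
      have := x.2
      rwa [Submodule.mem_torsionBy_iff] at this
    exact (hcore ℚ Qbar A P.freyCurve hyp P.p hp1 σ hval hres x.1 hxt).1

end Fermat.Agent.S13.WP3
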