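/-
S13 / WP3: (I4) `Stmt_two_unipotent`, assembled from the landed pieces; parametric only in
piece (2B) (`Stmt2_E1_add`, `Stmt2_E1_neg`, `Stmt2_F1`) (helper14).
-/
import Fermat.Agent.S13.WP3.I4
import Fermat.Agent.S13.WP3.M1
import Fermat.Agent.S13.WP3.H4_M1Cases
import Fermat.Agent.S13.WP3.H6_E0Cases
import Fermat.Agent.S13.WP3.H38_SameRed
import Fermat.Agent.S13.WP3.H5_CoreI4
import Fermat.Agent.S13.WP3.H15_Arith2
import Fermat.Agent.S05.Inertia

set_option autoImplicit false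

namespace Fermat.Agent.S13.WP3

open WeierstrassCurve WeierstrassCurve.Affine WeierstrassCurve.Affine.Point

/-- (2D) the component homomorphism, proved. -/
theorem stmt2_M1 {L : Type*} [Field L] [DecidableEq L] : Stmt2_M1 (L := L) :=
  M1.M1_of_cases H6.E0_add H6.E0C H4.cc H4.addT

/-- (2F) the core of (I4), from piece (2B). -/
theorem stmt2_coreI4_of
    (hE1a : ∀ (L : Type) [Field L] [DecidableEq L], Stmt2_E1_add (L := L))
    (hE1n : ∀ (L : Type) [Field L] [DecidableEq L], Stmt2_E1_neg (L := L))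
    (hF1 : ∀ (L : Type) [Field L] [DecidableEq L], Stmt2_F1 (L := L)) : Stmt2_coreI4 := by
  intro K₀ L _ _ _ _ _ A W' hyp n hn σ hσv hσr P hP
  exact H5.coreI4_of stmt2_M1 M1.annulus H38.sameRed (hE1a L) (hE1n L) (hF1 L)
    A W' hyp n hn σ hσv hσr P hP

/-- (I4) from piece (2B). -/
theorem two_unipotent_of_2B
    (hE1a : ∀ (L : Type) [Field L] [DecidableEq L], Stmt2_E1_add (L := L))
    (hE1n : ∀ (L : Type) [Field L] [DecidableEq L], Stmt2_E1_neg (L := L))
    (hF1 : ∀ (L : Type) [Field L] [DecidableEq L], Stmt2_F1 (L := L)) :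
    Fermat.Agent.S13.Stmt_two_unipotent :=
  two_unipotent_of (stmt2_coreI4_of hE1a hE1n hF1) H15.arith2 Fermat.Agent.S05.inertia
    H6.E0_add

end Fermat.Agent.S13.WP3
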