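/-
S13 / WP3: (I4) `Stmt_two_unipotent`, PROVED (assembly of all landed pieces) (helper14).
-/
import Fermat.Agent.S13.WP3.I4Final
import Fermat.Agent.S13.WP3.H5_E1

set_option autoImplicit false

namespace Fermat.Agent.S13.WP3

/-- (I4) Inertia at `2` acts unipotently on `E[p]` of the Frey curve. -/
theorem two_unipotent : Fermat.Agent.S13.Stmt_two_unipotent :=
  two_unipotent_of_2B (fun _ _ _ => H5.E1_add2) (fun _ _ _ => H5.E1_neg2)
    (fun _ _ _ => H5.F1_2)

end Fermat.Agent.S13.WP3
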