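import Fermat.Agent.S13.WP3.I5Defs

/-!
# S13 / WP3 piece 2G-b: torsion points with "rational" valuation lie in `E₀` (helper15)

`Fermat.Agent.S13.WP3.H15.torsion_in_E0 : Stmt2_M1 → Stmt2_annulus → Stmt2_torsion_in_E0`.
-/

set_option autoImplicit false

namespace Fermat.Agent.S13.WP3.H15

open WeierstrassCurve WeierstrassCurve.Affine

variable {L : Type*} [Field L] [DecidableEq L]

omit [DecidableEq L] in
/-- From `n • φ Q = 0` and `φ Q = [u]` get `u ^ n = (|b|²) ^ j`, in the value group. -/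
theorem exists_zpow_of_zsmul_eq_zero {A : ValuationSubring L} {W : Affine L}
    (hyp : ModelHyp2 A W) (u : (A.ValueGroup)ˣ) (n : ℤ)
    (h : n • (Additive.ofMul (QuotientGroup.mk u : CompGroup hyp)) = 0) :
    ∃ j : ℤ, A.valuation W.a₄ ^ (2 * j) = (u : A.ValueGroup) ^ n := by
  have h1 : (QuotientGroup.mk u : CompGroup hyp) ^ n = 1 := by
    apply Additive.ofMul.injective
    rw [ofMul_zpow, h, ofMul_one]
  rw [← QuotientGroup.mk_zpow, QuotientGroup.eq_one_iff, Subgroup.mem_zpowers_iff] at h1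
  obtain ⟨j, hj⟩ := h1
  refine ⟨j, ?_⟩
  have h2 := congrArg (fun w : (A.ValueGroup)ˣ => (w : A.ValueGroup)) hj
  simp only [Units.val_zpow_eq_zpow_val, Units.val_pow_eq_pow_val] at h2
  have h3 : ((bUnit hyp : (A.ValueGroup)ˣ) : A.ValueGroup) = A.valuation W.a₄ := rfl
  rw [h3] at h2
  rw [← h2, zpow_mul]
  norm_cast

theorem torsion_in_E0 (hM1 : Stmt2_M1 (L := L)) (hann : Stmt2_annulus (L := L)) :
    Stmt2_torsion_in_E0 (L := L) := by
  intro A W hyp lam hlam p m hm hcop hb Q hQ hx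
  rcases Q with _ | ⟨x, y, h⟩
  · trivial
  show 1 ≤ A.valuation x
  by_contra hlt
  rw [not_le] at hlt
  -- notation
  set t := A.valuation (2 : L) with ht
  have hb0 : A.valuation W.a₄ ≠ 0 := by
    rw [Ne, map_eq_zero]; exact hyp.b_ne
  have ht0 : t ≠ 0 := by
    intro h0
    rw [h0, zero_pow hm.ne'] at hb
    exact hb0 hb
  have htpos : 0 < t := zero_lt_iff.2 ht0
  have ht1 : t < 1 := hyp.two
  have hbpos : 0 < A.valuation W.a₄ := zero_lt_iff.2 hb0
  have hb1 : A.valuation W.a₄ < 1 := hyp.b_lt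
  have hpodd : ¬ (2 : ℤ) ∣ (p : ℤ) := by
    intro h2
    have h2' : (2 : ℕ) ∣ p := by exact_mod_cast h2
    have h3 : (2 : ℕ) ∣ Nat.gcd (2 * m) p := Nat.dvd_gcd (dvd_mul_right 2 m) h2'
    rw [hcop] at h3
    omega
  by_cases hxb : A.valuation x ≤ A.valuation W.a₄
  · -- `Q ∈ T + E₀`
    obtain ⟨φ, -, -, hφT⟩ := hM1 A W hyp lam hlam
    have h1 : (p : ℤ) • φ (Point.some x y h) = 0 := by
      rw [← map_zsmul, hQ, map_zero]
    rw [hφT x y h hxb] at h1
    obtain ⟨j, hj⟩ := exists_zpow_of_zsmul_eq_zero hyp _ _ h1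
    have h2 : A.valuation W.a₄ ^ (2 * j) = A.valuation W.a₄ ^ ((p : ℕ) : ℤ) := hj
    have h3 := zpow_right_injective₀ hbpos hb1.ne h2
    exact hpodd ⟨j, h3.symm⟩
  · rw [not_le] at hxb
    have hx0 : x ≠ 0 := by
      rintro rfl
      rw [map_zero] at hxb
      exact not_lt_zero hxb
    -- a component homomorphism with `φ Q = [|x|]`
    obtain ⟨φ, hφ⟩ : ∃ φ : W.Point →+ Additive (CompGroup hyp),
        φ (Point.some x y h) = Additive.ofMul (QuotientGroup.mk (valUnit A x hx0)) := by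
      rcases hann A W hyp lam hlam x y h hxb hlt with hC | hC
      · obtain ⟨φ, -, hφC, -⟩ := hM1 A W hyp lam hlam
        exact ⟨φ, hφC x y h hx0 hxb hlt hC⟩
      · have hlam' : (-1 - lam) ^ 2 + (-1 - lam) = W.a₂ := by rw [← hlam]; ring
        obtain ⟨φ, -, hφC, -⟩ := hM1 A W hyp (-1 - lam) hlam'
        exact ⟨φ, hφC x y h hx0 hxb hlt hC⟩
    have h1 : (p : ℤ) • φ (Point.some x y h) = 0 := by
      rw [← map_zsmul, hQ, map_zero]
    rw [hφ] at h1
    obtain ⟨j, hj⟩ := exists_zpow_of_zsmul_eq_zero hyp _ _ h1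
    obtain ⟨k, hk⟩ := hx x y h rfl hx0
    have hj2 : (t ^ m) ^ (2 * j) = (t ^ k) ^ ((p : ℕ) : ℤ) := by
      rw [← hb, ← hk]; exact hj
    have h2 : t ^ (2 * (m : ℤ) * j) = t ^ (k * (p : ℤ)) := by
      calc t ^ (2 * (m : ℤ) * j) = (t ^ (m : ℤ)) ^ (2 * j) := by
            rw [← zpow_mul]; ring_nf
        _ = (t ^ m) ^ (2 * j) := by rw [zpow_natCast]
        _ = (t ^ k) ^ ((p : ℕ) : ℤ) := hj2
        _ = t ^ (k * (p : ℤ)) := by rw [← zpow_mul]
    have h3 : 2 * (m : ℤ) * j = k * (p : ℤ) := zpow_right_injective₀ htpos ht1.ne h2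
    -- `p ∣ j`
    have hcopZ : IsCoprime ((p : ℕ) : ℤ) ((2 * m : ℕ) : ℤ) :=
      Nat.isCoprime_iff_coprime.2 hcop.symm
    have hpj : (p : ℤ) ∣ j := by
      have : (p : ℤ) ∣ ((2 * m : ℕ) : ℤ) * j := by
        push_cast
        exact ⟨k, by rw [h3]; ring⟩
      exact hcopZ.dvd_of_dvd_mul_left this
    obtain ⟨j', rfl⟩ := hpj
    have hp0 : (p : ℤ) ≠ 0 := by
      intro h0
      have : p = 0 := by exact_mod_cast h0
      rw [this, Nat.coprime_zero_right] at hcop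
      omega
    have h4 : k = 2 * (m : ℤ) * j' := by
      have : (p : ℤ) * k = (p : ℤ) * (2 * (m : ℤ) * j') := by
        rw [mul_comm _ k, ← h3]; ring
      exact mul_left_cancel₀ hp0 this
    -- `|b| < |x| < 1` gives `0 < 2 m j' < m`
    rw [hk, h4] at hlt hxb
    rw [hb, ← zpow_natCast] at hxb
    have h5 : (0 : ℤ) < 2 * (m : ℤ) * j' := by
      have := (zpow_lt_zpow_iff_right_of_lt_one₀ htpos ht1 (m := 2 * (m : ℤ) * j') (n := 0)).1
        (by simpa using hlt)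
      exact this
    have h6 : 2 * (m : ℤ) * j' < (m : ℤ) :=
      (zpow_lt_zpow_iff_right_of_lt_one₀ htpos ht1).1 hxb
    have hm' : (0 : ℤ) < (m : ℤ) := by exact_mod_cast hm
    rcases le_or_gt j' 0 with hj' | hj'
    · nlinarith
    · nlinarith

end Fermat.Agent.S13.WP3.H15
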