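/-
S13 / WP3, piece (2G) (no fixed point, I5): EXACT statements of the two local pieces.
Conventions as in `WP3/Defs.lean`.
-/
import Fermat.Agent.S13.WP3.M1Defs

set_option autoImplicit false

namespace Fermat.Agent.S13.WP3

open WeierstrassCurve WeierstrassCurve.Affine

variable {L : Type*} [Field L] [DecidableEq L]

/-- (2G-b) A `p`-torsion point (`p` prime to `2m`, `|b| = |2|^m`) whose `x`-coordinate, when
nonzero, has valuation an integral power of `|2|`, lies in `E₀`.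
Proof: `φ` from `Stmt2_M1`; `p • φ(Q) = 0`.  If `|x| ≤ |b|`: `φ(Q) = [|b|]`, so `|b|^p ∈ ⟨|b|²⟩`,
impossible for odd `p`.  If `|b| < |x| < 1`: `φ(Q) = ±[|x|]` (annulus), `|x|^p = |b|^(2j)`,
`|2|^(kp) = |2|^(2mj)`, so `kp = 2mj`, `p ∣ j`, `|x| = |b|^(2j')`, contradiction with
`|b| < |x| < 1`. -/
def Stmt2_torsion_in_E0 : Prop :=
  ∀ (A : ValuationSubring L) (W : Affine L), ModelHyp2 A W →
  ∀ lam : L, lam ^ 2 + lam = W.a₂ →
  ∀ (p m : ℕ), 0 < m → Nat.Coprime (2 * m) p →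
    A.valuation W.a₄ = A.valuation (2 : L) ^ m →
  ∀ (Q : W.Point), (p : ℤ) • Q = 0 →
    (∀ (x y : L) (h : W.Nonsingular x y), Q = .some x y h → x ≠ 0 →
      ∃ k : ℤ, A.valuation x = A.valuation (2 : L) ^ k) →
    InE0 A Q

/-- (2G-c) Pigeonhole on the reduction: `R` a set of "rational" elements, each integral one
`≡ 0` or `≡ 1`.  A `p`-torsion point `Q ∈ E₀` (`p ≥ 5` prime, `|p| = 1`) all of whose multiples
have coordinates in `R` is zero.
Proof: if `Q ≠ 0` then `Q, 2Q, 3Q` are nonzero, in `E₀` (`Stmt2_E0_add`), not in `E₁`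
(`Stmt2_F1`), so `|x_k| = 1`, `|y_k| ≤ 1`, `x_k ≡ 1`, `y_k ≡ 0` or `1`; two of them have the same
reduction, so `(i-j)Q ∈ E₁` (`Stmt2_sameRed`), nonzero and `p`-torsion: contradiction with F1. -/
def Stmt2_pigeonhole : Prop :=
  ∀ (A : ValuationSubring L) (W : Affine L), ModelHyp2 A W →
  ∀ (R : Set L), (∀ r ∈ R, A.valuation r ≤ 1 → A.valuation r < 1 ∨ A.valuation (r - 1) < 1) →
  ∀ (p : ℕ), p.Prime → 5 ≤ p → A.valuation (p : L) = 1 →
  ∀ (Q : W.Point), (p : ℤ) • Q = 0 → InE0 A Q →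
    (∀ (k : ℕ) (x y : L) (h : W.Nonsingular x y), k • Q = .some x y h → x ∈ R ∧ y ∈ R) →
    Q = 0

end Fermat.Agent.S13.WP3
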