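/-
S13 / WP3 piece (2G-c), helper6: pigeonhole on the reduction.

`pigeonhole : Stmt2_E0_add → Stmt2_sameRed → Stmt2_F1 → Stmt2_pigeonhole`
(`Stmt2_E1_neg` is not needed: `sameRed` is applied to `(j • Q, i • Q)` with `i < j`).
-/
import Fermat.Agent.S13.WP3.I5Defs

set_option autoImplicit false

namespace Fermat.Agent.S13.WP3.H6P

open WeierstrassCurve WeierstrassCurve.Affine

variable {L : Type*} [Field L]

lemma pg_equation_iff {W : Affine L} (h₁ : W.a₁ = 1) (h₃ : W.a₃ = 0) (h₆ : W.a₆ = 0)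
    (x y : L) : W.Equation x y ↔ y ^ 2 + x * y = x ^ 3 + W.a₂ * x ^ 2 + W.a₄ * x := by
  rw [Affine.equation_iff, h₁, h₃, h₆]
  constructor <;> intro h <;> linear_combination h

/-- On the model, a point with `|x| = 1` has `|y| ≤ 1`. -/
lemma pg_y_le {A : ValuationSubring L} {W : Affine L} (hyp : ModelHyp2 A W) {x y : L}
    (he : W.Equation x y) (hx : A.valuation x = 1) : A.valuation y ≤ 1 := by
  by_contra hcon
  have hy : 1 < A.valuation y := not_le.1 hcon
  have e := (pg_equation_iff hyp.a₁ hyp.a₃ hyp.a₆ x y).1 he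
  have hxy : A.valuation (x * y) = A.valuation y := by rw [map_mul, hx, one_mul]
  have hy2 : A.valuation y < A.valuation (y ^ 2) := by
    rw [map_pow, pow_two]
    calc A.valuation y = 1 * A.valuation y := (one_mul _).symm
      _ < A.valuation y * A.valuation y := by
        have h0 : (0 : A.ValueGroup) < A.valuation y := lt_trans zero_lt_one hy
        exact mul_lt_mul_of_pos_right hy h0
  have hL : A.valuation (y ^ 2 + x * y) = A.valuation (y ^ 2) :=
    Valuation.map_add_eq_of_lt_left _ (by rw [hxy]; exact hy2)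
  have hL1 : 1 < A.valuation (y ^ 2 + x * y) := by
    rw [hL]; exact lt_trans hy hy2
  have h3 : A.valuation (x ^ 3) ≤ 1 := by rw [map_pow, hx, one_pow]
  have h2 : A.valuation (W.a₂ * x ^ 2) ≤ 1 := by
    rw [map_mul, map_pow, hx, one_pow, mul_one]; exact hyp.a_le
  have h1 : A.valuation (W.a₄ * x) ≤ 1 := by
    rw [map_mul, hx, mul_one]; exact hyp.b_lt.le
  have hR : A.valuation (x ^ 3 + W.a₂ * x ^ 2 + W.a₄ * x) ≤ 1 :=
    (Valuation.map_add_le _ ((Valuation.map_add_le _ h3 h2)) h1)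
  rw [e] at hL1
  exact absurd hL1 (not_lt.2 hR)

/-- In a group, a nonzero element killed by a prime `p` is not killed by `0 < k < p`. -/
lemma pg_nsmul_ne_zero {G : Type*} [AddGroup G] {Q : G} {p : ℕ} (hp : p.Prime)
    (hpQ : p • Q = 0) (hQ : Q ≠ 0) {k : ℕ} (hk0 : 0 < k) (hkp : k < p) : k • Q ≠ 0 := by
  intro h
  have h1 : addOrderOf Q ∣ p := addOrderOf_dvd_of_nsmul_eq_zero hpQ
  have h2 : addOrderOf Q ∣ k := addOrderOf_dvd_of_nsmul_eq_zero h
  rcases (Nat.dvd_prime hp).1 h1 with h3 | h3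
  · exact hQ (AddMonoid.addOrderOf_eq_one_iff.1 h3)
  · rw [h3] at h2
    exact absurd (Nat.le_of_dvd hk0 h2) (not_le.2 hkp)

variable [DecidableEq L]

/-- Multiples of a point of `E₀` are in `E₀`. -/
lemma pg_nsmul_InE0 (hadd : Stmt2_E0_add (L := L)) {A : ValuationSubring L} {W : Affine L}
    (hyp : ModelHyp2 A W) (Q : W.Point) (hQ : InE0 A Q) (k : ℕ) : InE0 A (k • Q) := by
  induction k with
  | zero => rw [zero_nsmul]; trivial
  | succ n ih => rw [succ_nsmul]; exact hadd A W hyp _ _ ih hQ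

/-- The reduction data of a nonzero multiple `k • Q`, `0 < k < p`. -/
lemma pg_data (hadd : Stmt2_E0_add (L := L)) (hF1 : Stmt2_F1 (L := L))
    {A : ValuationSubring L} {W : Affine L} (hyp : ModelHyp2 A W) (R : Set L)
    (hR : ∀ r ∈ R, A.valuation r ≤ 1 → A.valuation r < 1 ∨ A.valuation (r - 1) < 1)
    {p : ℕ} (hp : p.Prime) (hpu : A.valuation (p : L) = 1)
    (Q : W.Point) (hpQ : p • Q = 0) (hQ0 : InE0 A Q)
    (hRQ : ∀ (k : ℕ) (x y : L) (h : W.Nonsingular x y), k • Q = .some x y h → x ∈ R ∧ y ∈ R)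
    (hQ : Q ≠ 0) {k : ℕ} (hk0 : 0 < k) (hkp : k < p) :
    ∃ (x y : L) (h : W.Nonsingular x y), k • Q = .some x y h ∧ A.valuation x = 1 ∧
      A.valuation (x - 1) < 1 ∧ (A.valuation y < 1 ∨ A.valuation (y - 1) < 1) := by
  have hk : k • Q ≠ 0 := pg_nsmul_ne_zero hp hpQ hQ hk0 hkp
  have hE0 : InE0 A (k • Q) := pg_nsmul_InE0 hadd hyp Q hQ0 k
  have hpk : p • (k • Q) = 0 := by
    rw [smul_comm, hpQ, smul_zero]
  generalize hP : k • Q = P at hk hE0 hpk
  rcases P with _ | ⟨x, y, h⟩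
  · exact absurd rfl hk
  have hx1 : 1 ≤ A.valuation x := hE0
  have hx2 : A.valuation x ≤ 1 := by
    by_contra hcon
    have hlt : 1 < A.valuation x := not_le.1 hcon
    exact hF1 A W hyp (.some x y h) hlt hk p hpu hpk
  have hx : A.valuation x = 1 := le_antisymm hx2 hx1
  have hy : A.valuation y ≤ 1 := pg_y_le hyp h.1 hx
  obtain ⟨hxR, hyR⟩ := hRQ k x y h hP
  refine ⟨x, y, h, rfl, hx, ?_, hR y hyR hy⟩
  rcases hR x hxR hx.le with h' | h'
  · rw [hx] at h'; exact absurd h' (lt_irrefl _)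
  · exact h'

omit [DecidableEq L] in
lemma pg_sub_lt {A : ValuationSubring L} {u w : L} (hu : A.valuation (u - 1) < 1)
    (hw : A.valuation (w - 1) < 1) : A.valuation (u - w) < 1 := by
  have : u - w = (u - 1) - (w - 1) := by ring
  rw [this]
  exact Valuation.map_sub_lt _ hu hw

omit [DecidableEq L] in
lemma pg_sub_lt' {A : ValuationSubring L} {u w : L} (hu : A.valuation u < 1)
    (hw : A.valuation w < 1) : A.valuation (u - w) < 1 :=
  Valuation.map_sub_lt _ hu hw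

/-- Two multiples `j • Q`, `i • Q` (`i < j < p`) with the same reduction: contradiction. -/
lemma pg_clash (hsame : Stmt2_sameRed (L := L)) (hF1 : Stmt2_F1 (L := L))
    {A : ValuationSubring L} {W : Affine L} (hyp : ModelHyp2 A W)
    {p : ℕ} (hp : p.Prime) (hpu : A.valuation (p : L) = 1)
    (Q : W.Point) (hpQ : p • Q = 0) (hQ : Q ≠ 0) {i j : ℕ} (hij : i < j) (hjp : j < p)
    {x y x' y' : L} {h : W.Nonsingular x y} {h' : W.Nonsingular x' y'}
    (hj : j • Q = .some x y h) (hi : i • Q = .some x' y' h')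
    (hx : A.valuation x = 1) (hxx : A.valuation (x - x') < 1)
    (hyy : A.valuation (y - y') < 1) : False := by
  have h1 : InE1 A (Point.some x y h - Point.some x' y' h') :=
    hsame A W hyp x y x' y' h h' hx hxx hyy
  have h2 : Point.some x y h - Point.some x' y' h' = (j - i) • Q := by
    rw [← hj, ← hi, sub_eq_add_neg, ← sub_nsmul _ hij.le]
  rw [h2] at h1
  have h3 : (j - i) • Q ≠ 0 :=
    pg_nsmul_ne_zero hp hpQ hQ (Nat.sub_pos_of_lt hij) (lt_of_le_of_lt (Nat.sub_le _ _) hjp)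
  have h4 : p • ((j - i) • Q) = 0 := by rw [smul_comm, hpQ, smul_zero]
  exact hF1 A W hyp _ h1 h3 p hpu h4

/-- Piece (2G-c), relative to `E0_add`, `sameRed`, `F1`. -/
theorem pigeonhole (hadd : Stmt2_E0_add (L := L)) (hsame : Stmt2_sameRed (L := L))
    (hF1 : Stmt2_F1 (L := L)) : Stmt2_pigeonhole (L := L) := by
  intro A W hyp R hR p hp hp5 hpu Q hpQz hQ0 hRQ
  by_contra hQ
  have hpQ : p • Q = 0 := by
    have := hpQz
    rwa [natCast_zsmul] at this
  obtain ⟨x₁, y₁, h₁, e₁, hx₁, hx₁', hy₁⟩ :=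
    pg_data hadd hF1 hyp R hR hp hpu Q hpQ hQ0 hRQ hQ (k := 1) (by norm_num) (by omega)
  obtain ⟨x₂, y₂, h₂, e₂, hx₂, hx₂', hy₂⟩ :=
    pg_data hadd hF1 hyp R hR hp hpu Q hpQ hQ0 hRQ hQ (k := 2) (by norm_num) (by omega)
  obtain ⟨x₃, y₃, h₃, e₃, hx₃, hx₃', hy₃⟩ :=
    pg_data hadd hF1 hyp R hR hp hpu Q hpQ hQ0 hRQ hQ (k := 3) (by norm_num) (by omega)
  have c21 : ¬ A.valuation (y₂ - y₁) < 1 := fun hh =>
    pg_clash hsame hF1 hyp hp hpu Q hpQ hQ (i := 1) (j := 2) (by norm_num) (by omega)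
      e₂ e₁ hx₂ (pg_sub_lt hx₂' hx₁') hh
  have c31 : ¬ A.valuation (y₃ - y₁) < 1 := fun hh =>
    pg_clash hsame hF1 hyp hp hpu Q hpQ hQ (i := 1) (j := 3) (by norm_num) (by omega)
      e₃ e₁ hx₃ (pg_sub_lt hx₃' hx₁') hh
  have c32 : ¬ A.valuation (y₃ - y₂) < 1 := fun hh =>
    pg_clash hsame hF1 hyp hp hpu Q hpQ hQ (i := 2) (j := 3) (by norm_num) (by omega)
      e₃ e₂ hx₃ (pg_sub_lt hx₃' hx₂') hh
  rcases hy₁ with a1 | a1 <;> rcases hy₂ with a2 | a2 <;> rcases hy₃ with a3 | a3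
  · exact c21 (pg_sub_lt' a2 a1)
  · exact c21 (pg_sub_lt' a2 a1)
  · exact c31 (pg_sub_lt' a3 a1)
  · exact c32 (pg_sub_lt a3 a2)
  · exact c32 (pg_sub_lt' a3 a2)
  · exact c31 (pg_sub_lt a3 a1)
  · exact c21 (pg_sub_lt a2 a1)
  · exact c21 (pg_sub_lt a2 a1)

end Fermat.Agent.S13.WP3.H6P
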