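/-
S13 / WP3 piece (2G-c), helper6: pigeonhole with `E0_add` (helper6) and `sameRed` (helper38)
plugged in; only `Stmt2_F1` remains as a hypothesis.
-/
import Fermat.Agent.S13.WP3.H6_Pigeonhole
import Fermat.Agent.S13.WP3.H6_E0Cases
import Fermat.Agent.S13.WP3.H38_SameRed

set_option autoImplicit false

namespace Fermat.Agent.S13.WP3.H6P

variable {L : Type*} [Field L] [DecidableEq L]

/-- Piece (2G-c), relative to `F1` only. -/
theorem pigeonhole_of_F1 (hF1 : Stmt2_F1 (L := L)) : Stmt2_pigeonhole (L := L) :=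
  pigeonhole H6.E0_add H38.sameRed hF1

end Fermat.Agent.S13.WP3.H6P
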