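/-
S13 / WP3: (I5) `Stmt_no_fixed_point`, PROVED (assembly of all landed pieces) (helper14).
-/
import Fermat.Agent.S13.WP3.TwoUnipotent
import Fermat.Agent.S13.WP3.H15_TorsE0
import Fermat.Agent.S13.WP3.H6_PigeonholeFinal
import Fermat.Agent.S13.H12_FixedRat
import Fermat.Agent.Lib.FrobExists

set_option autoImplicit false

namespace Fermat.Agent.S13.WP3.H14

open WeierstrassCurve WeierstrassCurve.Affine WeierstrassCurve.Affine.Point

/-- The coordinates of a Galois-fixed affine point of `E(Q̄)` are rational. -/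
lemma coords_rat_of_fixed (W : Affine ℚ) (x y : Qbar) (h : (W⁄Qbar).Nonsingular x y)
    (hfix : ∀ σ : Gal, σ • (Point.some x y h : (W⁄Qbar).Point) = Point.some x y h) :
    x ∈ Set.range (algebraMap ℚ Qbar) ∧ y ∈ Set.range (algebraMap ℚ Qbar) := by
  have hxy : ∀ σ : Gal, σ x = x ∧ σ y = y := by
    intro σ
    have h1 := hfix σ
    rw [algEquiv_smul_def, Point.map_some] at h1
    injection h1 with h3 h4
    exact ⟨h3, h4⟩
  exact ⟨Fermat.Agent.S13.H12.fixed_rat x fun σ => (hxy σ).1,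
    Fermat.Agent.S13.H12.fixed_rat y fun σ => (hxy σ).2⟩

/-- (I5) The Frey curve has no nonzero `G`-fixed `p`-torsion point. -/
theorem no_fixed_point : Fermat.Agent.S13.Stmt_no_fixed_point := by
  intro P x hx
  obtain ⟨A, hA⟩ := Fermat.Agent.Lib.FrobExists.exists_liesOverPrime 2 Nat.prime_two
  obtain ⟨hyp, hp1, m, hm, hcop, hb⟩ := H15.arith2 P A hA
  obtain ⟨lam, hlam⟩ : ∃ lam : Qbar, lam ^ 2 + lam = (P.freyCurve⁄Qbar).a₂ := by
    obtain ⟨z, hz⟩ := IsAlgClosed.exists_root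
      (Polynomial.X ^ 2 + Polynomial.X - Polynomial.C ((P.freyCurve⁄Qbar).a₂) :
        Polynomial Qbar) (by
        have : (Polynomial.X ^ 2 + Polynomial.X - Polynomial.C ((P.freyCurve⁄Qbar).a₂) :
            Polynomial Qbar).degree = 2 := by
          compute_degree!
        rw [this]; norm_num)
    refine ⟨z, ?_⟩
    simp only [Polynomial.IsRoot.def, Polynomial.eval_sub, Polynomial.eval_add,
      Polynomial.eval_pow, Polynomial.eval_X, Polynomial.eval_C] at hz
    linear_combination hz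
  have hQt : (P.p : ℤ) • (x : (P.freyCurve⁄Qbar).Point) = 0 := by
    have := x.2
    rwa [Submodule.mem_torsionBy_iff] at this
  have hfix : ∀ σ : Gal, σ • (x : (P.freyCurve⁄Qbar).Point) = x :=
    fun σ => congrArg Subtype.val (hx σ)
  have hfixk : ∀ (k : ℕ) (σ : Gal),
      σ • (k • (x : (P.freyCurve⁄Qbar).Point)) = k • (x : (P.freyCurve⁄Qbar).Point) := by
    intro k σ
    rw [← natCast_zsmul, algEquiv_smul_zsmul, hfix σ]
  have hrat : ∀ (k : ℕ) (u v : Qbar) (h : (P.freyCurve⁄Qbar).Nonsingular u v),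
      k • (x : (P.freyCurve⁄Qbar).Point) = .some u v h →
      u ∈ Set.range (algebraMap ℚ Qbar) ∧ v ∈ Set.range (algebraMap ℚ Qbar) := by
    intro k u v h hk
    apply coords_rat_of_fixed P.freyCurve u v h
    intro σ
    rw [← hk]
    exact hfixk k σ
  have hE0 : InE0 A (x : (P.freyCurve⁄Qbar).Point) := by
    refine H15.torsion_in_E0 stmt2_M1 M1.annulus A _ hyp lam hlam P.p m hm hcop hb _ hQt ?_
    intro u v h hQ hu0
    obtain ⟨⟨r, hr⟩, -⟩ := hrat 1 u v h (by rw [one_smul]; exact hQ)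
    have hr0 : r ≠ 0 := by
      rintro rfl
      rw [_root_.map_zero] at hr
      exact hu0 hr.symm
    obtain ⟨k, hk⟩ := H15.ratVal A hA r hr0
    exact ⟨k, by rw [← hr]; exact hk⟩
  have hR : ∀ r ∈ Set.range (algebraMap ℚ Qbar), A.valuation r ≤ 1 →
      A.valuation r < 1 ∨ A.valuation (r - 1) < 1 := by
    rintro _ ⟨r, rfl⟩ hr
    exact H15.ratRes A hA r hr
  exact Subtype.ext (H6P.pigeonhole_of_F1 H5.F1_2 A _ hyp _ hR P.p P.pp P.hp5 hp1 _ hQt hE0 hrat)

end Fermat.Agent.S13.WP3.H14
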