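/-
S13 / WP3, piece 2E: arithmetic of the Frey model at the prime `2`
(`Stmt2_arith`, `Stmt2_ratVal`, `Stmt2_ratRes`).
-/
import Mathlib
import Fermat.Agent.S13.WP3.Defs
import Fermat.Agent.S05.H15_Val
import Fermat.Agent.S04.H4_Semistable

set_option autoImplicit false

namespace Fermat.Agent.S13.WP3.H4

open WeierstrassCurve WeierstrassCurve.Affine
open Fermat.Agent.S05.H15

section general

variable {L : Type*} [Field L] {A : ValuationSubring L}

/-- `|2| < 1` at a place over `2`. -/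
lemma val_two_lt_one (hA : A.LiesOverPrime 2) : A.valuation (2 : L) < 1 := by
  have h : ((2 : ℕ) : L) ∈ A.nonunits := hA
  have := valuation_lt_one_of_mem_nonunits h
  simpa using this

/-- an integer `n ≠ 0` is `2 ^ k` times an odd integer. -/
lemma int_eq_two_pow_mul_odd {n : ℤ} (hn : n ≠ 0) :
    ∃ (k : ℕ) (c : ℤ), n = 2 ^ k * c ∧ ¬ (2 : ℤ) ∣ c := by
  have hfin : FiniteMultiplicity (2 : ℤ) n :=
    Int.finiteMultiplicity_iff.2 ⟨by decide, hn⟩
  obtain ⟨c, hc, hc'⟩ := hfin.exists_eq_pow_mul_and_not_dvd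
  exact ⟨_, c, hc, hc'⟩

/-- the valuation of an odd integer is `1`. -/
lemma val_odd (hA : A.LiesOverPrime 2) {c : ℤ} (hc : ¬ (2 : ℤ) ∣ c) :
    A.valuation (c : L) = 1 :=
  valuation_intCast_eq_one_of_not_dvd (q := 2) Nat.prime_two hA (by exact_mod_cast hc)

/-- the valuation of an even integer is `< 1`. -/
lemma val_even (hA : A.LiesOverPrime 2) {c : ℤ} (hc : (2 : ℤ) ∣ c) :
    A.valuation (c : L) < 1 :=
  valuation_intCast_lt_one_of_dvd (q := 2) hA (by exact_mod_cast hc)

/-- the valuation of `2 ^ k * c`, `c` odd. -/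
lemma val_two_pow_mul_odd (hA : A.LiesOverPrime 2) (k : ℕ) {c : ℤ} (hc : ¬ (2 : ℤ) ∣ c) :
    A.valuation (((2 ^ k * c : ℤ)) : L) = A.valuation (2 : L) ^ k := by
  push_cast
  rw [map_mul, map_pow, val_odd hA hc, mul_one]

/-- valuations of nonzero integers are powers of `|2|`. -/
lemma val_int (hA : A.LiesOverPrime 2) {n : ℤ} (hn : n ≠ 0) :
    ∃ k : ℕ, A.valuation (n : L) = A.valuation (2 : L) ^ k := by
  obtain ⟨k, c, rfl, hc⟩ := int_eq_two_pow_mul_odd hn
  exact ⟨k, val_two_pow_mul_odd hA k hc⟩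

end general

section rat

variable {L : Type*} [Field L] [CharZero L] {A : ValuationSubring L}

/-- valuations of nonzero rationals are integral powers of `|2|`. -/
lemma val_rat (hA : A.LiesOverPrime 2) {r : ℚ} (hr : r ≠ 0) :
    ∃ k : ℤ, A.valuation ((r : L)) = A.valuation (2 : L) ^ k := by
  have hnum : r.num ≠ 0 := Rat.num_ne_zero.2 hr
  have hden : (r.den : ℤ) ≠ 0 := by exact_mod_cast r.den_nz
  obtain ⟨k₁, h₁⟩ := val_int (L := L) hA hnum
  obtain ⟨k₂, h₂⟩ := val_int (L := L) hA hden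
  refine ⟨(k₁ : ℤ) - k₂, ?_⟩
  have e : (r : L) = (r.num : L) / ((r.den : ℤ) : L) := by
    have := Rat.cast_def (K := L) r
    rw [this]; push_cast; rfl
  have h20 : A.valuation (2 : L) ≠ 0 := by
    rw [Valuation.ne_zero_iff]; exact two_ne_zero
  rw [e, map_div₀, h₁, h₂, zpow_sub₀ h20, zpow_natCast, zpow_natCast]

/-- a rational number integral at a place over `2` is `≡ 0` or `≡ 1`. -/
lemma res_rat (hA : A.LiesOverPrime 2) (r : ℚ) (hr : A.valuation ((r : L)) ≤ 1) :
    A.valuation ((r : L)) < 1 ∨ A.valuation ((r : L) - 1) < 1 := by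
  have e : (r : L) = (r.num : L) / ((r.den : ℤ) : L) := by
    have := Rat.cast_def (K := L) r
    rw [this]; push_cast; rfl
  have hden0 : ((r.den : ℤ) : L) ≠ 0 := by
    have : (r.den : ℤ) ≠ 0 := by exact_mod_cast r.den_nz
    exact_mod_cast this
  -- the denominator is odd
  have hdodd : ¬ (2 : ℤ) ∣ (r.den : ℤ) := by
    intro hd
    have hnodd : ¬ (2 : ℤ) ∣ r.num := by
      intro hn
      have h2 : (2 : ℕ) ∣ r.num.natAbs := by
        have := Int.natAbs_dvd_natAbs.2 hn
        simpa using this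
      have h3 : (2 : ℕ) ∣ r.den := by exact_mod_cast hd
      have := Nat.eq_one_of_dvd_coprimes r.reduced h2 h3
      omega
    have h1 : A.valuation ((r.num : L)) = 1 := val_odd hA hnodd
    have h2 : A.valuation (((r.den : ℤ) : L)) < 1 := val_even hA hd
    have h2pos : 0 < A.valuation (((r.den : ℤ) : L)) := by
      rw [Valuation.pos_iff]; exact hden0
    rw [e, map_div₀, h1, div_le_iff₀ h2pos, one_mul] at hr
    exact absurd h2 (not_lt.2 hr)
  have hd1 : A.valuation (((r.den : ℤ) : L)) = 1 := val_odd hA hdodd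
  by_cases hn : (2 : ℤ) ∣ r.num
  · left
    rw [e, map_div₀, hd1, div_one]
    exact val_even hA hn
  · right
    have e' : (r : L) - 1 = ((r.num - r.den : ℤ) : L) / ((r.den : ℤ) : L) := by
      rw [e]; push_cast; field_simp
    have hdiff : (2 : ℤ) ∣ r.num - r.den := by
      have h1 : r.num % 2 = 1 := by omega
      have h2 : (r.den : ℤ) % 2 = 1 := by omega
      omega
    rw [e', map_div₀, hd1, div_one]
    exact val_even hA hdiff

end rat

section frey

open Fermat.Agent.S04.H4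

/-- (2G0) valuations of rational numbers at a place over `2` are integral powers of `|2|`. -/
theorem ratVal : Stmt2_ratVal := by
  intro A hA r hr
  obtain ⟨k, hk⟩ := val_rat (L := Qbar) hA hr
  exact ⟨k, by rw [eq_ratCast]; exact hk⟩

/-- (2G1) a rational number which is integral at a place over `2` is `≡ 0` or `≡ 1`. -/
theorem ratRes : Stmt2_ratRes := by
  intro A hA r hr
  rw [eq_ratCast] at hr ⊢
  exact res_rat (L := Qbar) hA r hr

lemma freyCurve_a₂_eq (P : FreyPackage) : P.freyCurve.a₂ = ((P.freyCurveInt.a₂ : ℤ) : ℚ) := by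
  rw [← freyCurveInt_map]; simp

lemma freyCurve_a₄_eq (P : FreyPackage) : P.freyCurve.a₄ = ((P.freyCurveInt.a₄ : ℤ) : ℚ) := by
  rw [← freyCurveInt_map]; simp

lemma a_odd (P : FreyPackage) : ¬ (2 : ℤ) ∣ P.a := by
  intro h
  have h1 : ((P.a : ℤ) : ZMod 4) = 3 := P.ha4
  obtain ⟨c, hc⟩ := h
  rw [hc] at h1
  have h2 : ∀ x : ZMod 4, (2 : ZMod 4) * x ≠ 3 := by decide
  exact h2 (c : ZMod 4) (by simpa using h1)

/-- `a₄ = 2 ^ m * odd` with `m = k p - 4 > 0`, `gcd(2m, p) = 1`. -/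
lemma a₄_eq_two_pow_mul_odd (P : FreyPackage) :
    ∃ (m : ℕ) (c : ℤ), 0 < m ∧ Nat.Coprime (2 * m) P.p ∧
      P.freyCurveInt.a₄ = 2 ^ m * c ∧ ¬ (2 : ℤ) ∣ c := by
  obtain ⟨k, b', hb, hb'⟩ := int_eq_two_pow_mul_odd P.hb0
  have hk : 1 ≤ k := by
    rcases Nat.eq_zero_or_pos k with h0 | h0
    · exfalso
      rw [h0, pow_zero, one_mul] at hb
      exact hb' (hb ▸ two_dvd_b P)
    · exact h0
  have hp5 := P.hp5
  have hkp : 5 ≤ k * P.p := by nlinarith
  have h16 := sixteen_mul_a₄ P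
  have hpow : (2 : ℤ) ^ (k * P.p) = 16 * 2 ^ (k * P.p - 4) := by
    have : k * P.p = 4 + (k * P.p - 4) := by omega
    conv_lhs => rw [this, pow_add]
    norm_num
  have ha₄ : P.freyCurveInt.a₄ = 2 ^ (k * P.p - 4) * (-(P.a ^ P.p) * b' ^ P.p) := by
    have h1 : (16 : ℤ) * P.freyCurveInt.a₄ =
        16 * (2 ^ (k * P.p - 4) * (-(P.a ^ P.p) * b' ^ P.p)) := by
      rw [h16]
      conv_lhs => rw [hb, mul_pow, ← pow_mul, hpow]
      ring
    exact mul_left_cancel₀ (by norm_num) h1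
  have h2prime : Prime (2 : ℤ) := Int.prime_two
  refine ⟨k * P.p - 4, -(P.a ^ P.p) * b' ^ P.p, by omega, ?_, ha₄, ?_⟩
  · -- coprimality
    rw [Nat.coprime_comm, Nat.Prime.coprime_iff_not_dvd P.pp]
    intro hdvd
    have h8 : P.p ∣ 8 := by
      have e : 2 * (k * P.p - 4) + 8 = P.p * (2 * k) := by
        have : 4 ≤ k * P.p := by omega
        zify [this]; ring
      have h1 : P.p ∣ 2 * (k * P.p - 4) + 8 := by rw [e]; exact dvd_mul_right _ _
      exact (Nat.dvd_add_right hdvd).1 h1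
    have hle : P.p ≤ 8 := Nat.le_of_dvd (by norm_num) h8
    have hpp := P.pp
    interval_cases h : P.p <;> simp_all (config := { decide := true })
  · -- oddness
    intro hdvd
    rcases h2prime.dvd_or_dvd hdvd with h | h
    · rw [dvd_neg] at h
      exact a_odd P (h2prime.dvd_of_dvd_pow h)
    · exact hb' (h2prime.dvd_of_dvd_pow h)

/-- (2E) arithmetic of the Frey model at `2`. -/
theorem arith2 : Stmt2_arith := by
  intro P A hA
  obtain ⟨m, c, hm, hcop, ha₄, hc⟩ := a₄_eq_two_pow_mul_odd P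
  have hval₄ : A.valuation (algebraMap ℚ Qbar P.freyCurve.a₄) = A.valuation (2 : Qbar) ^ m := by
    rw [freyCurve_a₄_eq, ha₄, eq_ratCast]
    have := val_two_pow_mul_odd (L := Qbar) hA m hc
    rw [← this]
    push_cast
    rfl
  have h2lt : A.valuation (2 : Qbar) < 1 := val_two_lt_one hA
  have h2pos : 0 < A.valuation (2 : Qbar) := by
    rw [Valuation.pos_iff]; exact two_ne_zero
  refine ⟨⟨?_, ?_, ?_, ?_, ?_, ?_, h2lt⟩, ?_, m, hm, hcop, hval₄⟩
  · simp [FreyPackage.freyCurve]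
  · simp [FreyPackage.freyCurve]
  · simp [FreyPackage.freyCurve]
  · show A.valuation (algebraMap ℚ Qbar P.freyCurve.a₂) ≤ 1
    rw [freyCurve_a₂_eq, eq_ratCast]
    have := valuation_intCast_le_one A (L := Qbar) P.freyCurveInt.a₂
    exact_mod_cast this
  · show A.valuation (algebraMap ℚ Qbar P.freyCurve.a₄) < 1
    rw [hval₄]
    exact pow_lt_one₀ zero_le h2lt hm.ne'
  · show algebraMap ℚ Qbar P.freyCurve.a₄ ≠ 0
    intro h0
    rw [h0, map_zero] at hval₄
    exact absurd hval₄.symm (pow_pos h2pos m).ne'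
  · have hp2 : P.p ≠ 2 := by have := P.hp5; omega
    exact valuation_natCast_eq_one_of_ne (q := 2) Nat.prime_two hA P.pp hp2

end frey

end Fermat.Agent.S13.WP3.H4
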